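import Mathlib
import Fermat.Agent.MUL.Orig.S14.Interface
import Fermat.Agent.MUL.Orig.Lib.Herbrand.Cyclo
import Fermat.Agent.MUL.Orig.E.S12.Leaves

section MergeWrap_S14_FirstIneq_UnitIndex -- from S14/FirstIneq/UnitIndex.lean

set_option autoImplicit false

open NumberField

namespace Fermat.Agent.S14FI

variable (E M : Type) [Field E] [NumberField E] [Field M] [NumberField M] [Algebra E M]

/-- The norm on units `(𝓞 M)ˣ → (𝓞 E)ˣ`. -/
noncomputable def unitNorm : (𝓞 M)ˣ →* (𝓞 E)ˣ :=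
  Units.map (RingOfIntegers.norm E : 𝓞 M →* 𝓞 E)

variable {E M}

/-- The action of `Gal(M/E)` on the units of `𝓞 M`. -/
noncomputable def unitAct (τ : M ≃ₐ[E] M) : (𝓞 M)ˣ →* (𝓞 M)ˣ :=
  Units.map ((galRestrict (𝓞 E) E M (𝓞 M) τ : 𝓞 M ≃ₐ[𝓞 E] 𝓞 M) : 𝓞 M →* 𝓞 M)

/-- `v ↦ τ v / v` on units. -/
noncomputable def unitTwist (τ : M ≃ₐ[E] M) : (𝓞 M)ˣ →* (𝓞 M)ˣ where
  toFun v := unitAct τ v / v
  map_one' := by simp
  map_mul' v w := by
    rw [map_mul]
    exact mul_div_mul_comm _ _ _ _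

@[simp] theorem unitTwist_apply (τ : M ≃ₐ[E] M) (v : (𝓞 M)ˣ) :
    unitTwist τ v = unitAct τ v / v := rfl

/-- **Unit index relation** (= Herbrand quotient of the units is `1/p`):
`[ker N : (τ - 1) E_M] = p * [E_E : N E_M]`, and the latter index is finite. -/
def UnitIndex : Prop :=
  ∀ (p : ℕ) (E M : Type) [Field E] [NumberField E] [Field M] [NumberField M] [Algebra E M]
    [IsGalois E M] (τ : M ≃ₐ[E] M), p.Prime → p ≠ 2 → Module.finrank E M = p → τ ≠ 1 →
    (unitNorm E M).range.index ≠ 0 ∧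
      (unitTwist τ).range.relIndex (unitNorm E M).ker = p * (unitNorm E M).range.index

/-- Target of (C)+(D): the first inequality from the unit index relation and the two
ambiguous-ideal lemmas. -/
def FirstIneqOfUnitIndex : Prop := UnitIndex → Fermat.Agent.S14.FirstIneq

end Fermat.Agent.S14FI
end MergeWrap_S14_FirstIneq_UnitIndex

section MergeWrap_S14_FirstIneq_ClassMaps -- from S14/FirstIneq/ClassMaps.lean

set_option autoImplicit false

open scoped nonZeroDivisors

namespace Fermat.Agent.S14FI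

section general

variable {R S : Type*} [CommRing R] [IsDedekindDomain R]
  [CommRing S] [IsDedekindDomain S]

/-- A chosen integral representative of an ideal class. -/
noncomputable def clRep (c : ClassGroup S) : (Ideal S)⁰ := (ClassGroup.mk0_surjective c).choose

@[simp] theorem mk0_clRep (c : ClassGroup S) : ClassGroup.mk0 (clRep c) = c :=
  (ClassGroup.mk0_surjective c).choose_spec

/-- A nonzero principal ideal as an element of `(Ideal S)⁰`. -/
def spanNZ (x : S) (hx : x ≠ 0) : (Ideal S)⁰ :=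
  ⟨Ideal.span {x}, mem_nonZeroDivisors_iff_ne_zero.mpr
    (by rwa [Ne, Ideal.zero_eq_bot, Ideal.span_singleton_eq_bot])⟩

@[simp] theorem coe_spanNZ (x : S) (hx : x ≠ 0) : ((spanNZ x hx : (Ideal S)⁰) : Ideal S) =
    Ideal.span {x} := rfl

theorem mk0_spanNZ (x : S) (hx : x ≠ 0) : ClassGroup.mk0 (spanNZ x hx) = 1 :=
  (ClassGroup.mk0_eq_one_iff _).mpr ⟨⟨x, rfl⟩⟩

theorem mk0_eq_mk0_iff_spanNZ {I J : (Ideal S)⁰} :
    ClassGroup.mk0 I = ClassGroup.mk0 J ↔
      ∃ (x y : S) (hx : x ≠ 0) (hy : y ≠ 0), spanNZ x hx * I = spanNZ y hy * J := by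
  rw [ClassGroup.mk0_eq_mk0_iff]
  constructor
  · rintro ⟨x, y, hx, hy, h⟩
    exact ⟨x, y, hx, hy, Subtype.ext h⟩
  · rintro ⟨x, y, hx, hy, h⟩
    exact ⟨x, y, hx, hy, congrArg Subtype.val h⟩

variable (F : (Ideal S)⁰ →* (Ideal R)⁰)
  (hF : ∀ (x : S) (hx : x ≠ 0), ClassGroup.mk0 (F (spanNZ x hx)) = 1)

include hF in
theorem mk0_map_eq_of_mk0_eq {I J : (Ideal S)⁰} (h : ClassGroup.mk0 I = ClassGroup.mk0 J) :
    ClassGroup.mk0 (F I) = ClassGroup.mk0 (F J) := by
  obtain ⟨x, y, hx, hy, hxy⟩ := mk0_eq_mk0_iff_spanNZ.mp h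
  have h1 := congrArg (fun K => ClassGroup.mk0 (F K)) hxy
  simp only [map_mul, hF, one_mul] at h1
  exact h1

/-- The homomorphism of class groups induced by a multiplicative map of nonzero ideals which
preserves principal ideals. -/
noncomputable def clLift : ClassGroup S →* ClassGroup R where
  toFun c := ClassGroup.mk0 (F (clRep c))
  map_one' := by
    have h : ClassGroup.mk0 (clRep (1 : ClassGroup S)) = ClassGroup.mk0 (1 : (Ideal S)⁰) := by
      rw [mk0_clRep, map_one]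
    rw [mk0_map_eq_of_mk0_eq F hF h, map_one, map_one]
  map_mul' c c' := by
    have h : ClassGroup.mk0 (clRep (c * c')) = ClassGroup.mk0 (clRep c * clRep c') := by
      rw [mk0_clRep, map_mul, mk0_clRep, mk0_clRep]
    rw [mk0_map_eq_of_mk0_eq F hF h, map_mul, map_mul]

@[simp] theorem clLift_mk0 (I : (Ideal S)⁰) :
    clLift F hF (ClassGroup.mk0 I) = ClassGroup.mk0 (F I) :=
  mk0_map_eq_of_mk0_eq F hF (mk0_clRep _)

end general

section equiv

variable {S S' : Type*} [CommRing S] [IsDedekindDomain S]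
  [CommRing S'] [IsDedekindDomain S']

/-- The image of a nonzero ideal under a ring isomorphism. -/
def mapNZ (e : S ≃+* S') : (Ideal S)⁰ →* (Ideal S')⁰ where
  toFun I := ⟨(I : Ideal S).map (e : S →+* S'), mem_nonZeroDivisors_iff_ne_zero.mpr (by
    have hI : (I : Ideal S) ≠ ⊥ := by
      have := mem_nonZeroDivisors_iff_ne_zero.mp I.2
      simpa using this
    rw [Ne, Ideal.zero_eq_bot]
    intro h
    exact hI ((Ideal.map_eq_bot_iff_of_injective (f := (e : S →+* S')) e.injective).mp h))⟩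
  map_one' := by
    apply Subtype.ext
    simp [Ideal.one_eq_top, Ideal.map_top]
  map_mul' I J := by
    apply Subtype.ext
    simp [Ideal.map_mul]

@[simp] theorem coe_mapNZ (e : S ≃+* S') (I : (Ideal S)⁰) :
    ((mapNZ e I : (Ideal S')⁰) : Ideal S') = (I : Ideal S).map (e : S →+* S') := rfl

theorem mapNZ_spanNZ (e : S ≃+* S') (x : S) (hx : x ≠ 0) :
    mapNZ e (spanNZ x hx) = spanNZ (e x) ((map_ne_zero_iff e e.injective).mpr hx) := by
  apply Subtype.ext
  simp [Ideal.map_span]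

/-- The automorphism of the class group induced by a ring isomorphism. -/
noncomputable def clMap (e : S ≃+* S') : ClassGroup S →* ClassGroup S' :=
  clLift (mapNZ e) (fun x hx => by rw [mapNZ_spanNZ, mk0_spanNZ])

@[simp] theorem clMap_mk0 (e : S ≃+* S') (I : (Ideal S)⁰) :
    clMap e (ClassGroup.mk0 I) = ClassGroup.mk0 (mapNZ e I) :=
  clLift_mk0 _ _ I

end equiv

section ext

variable {R S : Type*} [CommRing R] [IsDedekindDomain R]
  [CommRing S] [IsDedekindDomain S] [Algebra R S] [FaithfulSMul R S]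

/-- Extension of nonzero ideals. -/
def extNZ : (Ideal R)⁰ →* (Ideal S)⁰ where
  toFun J := ⟨(J : Ideal R).map (algebraMap R S), mem_nonZeroDivisors_iff_ne_zero.mpr (by
    have hJ : (J : Ideal R) ≠ ⊥ := by
      have := mem_nonZeroDivisors_iff_ne_zero.mp J.2
      simpa using this
    rw [Ne, Ideal.zero_eq_bot,
      Ideal.map_eq_bot_iff_of_injective (FaithfulSMul.algebraMap_injective R S)]
    exact hJ)⟩
  map_one' := by
    apply Subtype.ext
    simp [Ideal.one_eq_top, Ideal.map_top]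
  map_mul' I J := by
    apply Subtype.ext
    simp [Ideal.map_mul]

@[simp] theorem coe_extNZ (J : (Ideal R)⁰) :
    ((extNZ J : (Ideal S)⁰) : Ideal S) = (J : Ideal R).map (algebraMap R S) := rfl

theorem extNZ_spanNZ (x : R) (hx : x ≠ 0) :
    (extNZ (spanNZ x hx) : (Ideal S)⁰) = spanNZ (algebraMap R S x)
      ((map_ne_zero_iff _ (FaithfulSMul.algebraMap_injective R S)).mpr hx) := by
  apply Subtype.ext
  simp [Ideal.map_span]

variable (R S) in
/-- The homomorphism of class groups induced by extension of ideals. -/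
noncomputable def clExt : ClassGroup R →* ClassGroup S :=
  clLift extNZ (fun x hx => by rw [extNZ_spanNZ, mk0_spanNZ])

@[simp] theorem clExt_mk0 (J : (Ideal R)⁰) :
    clExt R S (ClassGroup.mk0 J) = ClassGroup.mk0 (extNZ J) :=
  clLift_mk0 _ _ J

end ext

end Fermat.Agent.S14FI
end MergeWrap_S14_FirstIneq_ClassMaps

section MergeWrap_S14_FirstIneq_ClassNorm -- from S14/FirstIneq/ClassNorm.lean

set_option autoImplicit false

open NumberField
open scoped nonZeroDivisors

namespace Fermat.Agent.S14FI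

section norm

variable (E M : Type) [Field E] [NumberField E] [Field M] [NumberField M] [Algebra E M]

theorem intNorm_eq_norm (x : 𝓞 M) :
    Algebra.intNorm (𝓞 E) (𝓞 M) x = RingOfIntegers.norm E x := by
  apply RingOfIntegers.ext
  rw [RingOfIntegers.coe_norm]
  exact Algebra.algebraMap_intNorm (A := 𝓞 E) (K := E) (L := M) (B := 𝓞 M) x

omit [NumberField M] in
theorem coe_ne_bot (I : (Ideal (𝓞 M))⁰) : (I : Ideal (𝓞 M)) ≠ ⊥ := by
  have := mem_nonZeroDivisors_iff_ne_zero.mp I.2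
  simpa using this

/-- The relative norm on nonzero ideals. -/
noncomputable def normNZ : (Ideal (𝓞 M))⁰ →* (Ideal (𝓞 E))⁰ where
  toFun I := ⟨Ideal.relNorm (𝓞 E) (I : Ideal (𝓞 M)), mem_nonZeroDivisors_iff_ne_zero.mpr (by
    rw [Ne, Ideal.zero_eq_bot, Ideal.relNorm_eq_bot_iff]
    exact coe_ne_bot M I)⟩
  map_one' := by
    apply Subtype.ext
    simp [Ideal.one_eq_top]
  map_mul' I J := by
    apply Subtype.ext
    simp

@[simp] theorem coe_normNZ (I : (Ideal (𝓞 M))⁰) :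
    ((normNZ E M I : (Ideal (𝓞 E))⁰) : Ideal (𝓞 E)) = Ideal.relNorm (𝓞 E) (I : Ideal (𝓞 M)) :=
  rfl

theorem norm_ne_zero {x : 𝓞 M} (hx : x ≠ 0) : RingOfIntegers.norm E x ≠ 0 := by
  intro h
  have h1 : Algebra.norm E (x : M) = 0 := by
    rw [← RingOfIntegers.coe_norm, h]
    rfl
  rw [Algebra.norm_eq_zero_iff] at h1
  exact hx (RingOfIntegers.ext h1)

theorem normNZ_spanNZ (x : 𝓞 M) (hx : x ≠ 0) :
    normNZ E M (spanNZ x hx) = spanNZ (RingOfIntegers.norm E x) (norm_ne_zero E M hx) := by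
  apply Subtype.ext
  simp [Ideal.relNorm_singleton, intNorm_eq_norm]

/-- The norm on ideal classes. -/
noncomputable def clNorm : ClassGroup (𝓞 M) →* ClassGroup (𝓞 E) :=
  clLift (normNZ E M) (fun x hx => by rw [normNZ_spanNZ, mk0_spanNZ])

@[simp] theorem clNorm_mk0 (I : (Ideal (𝓞 M))⁰) :
    clNorm E M (ClassGroup.mk0 I) = ClassGroup.mk0 (normNZ E M I) :=
  clLift_mk0 _ _ I

theorem mem_normClasses_iff (c : ClassGroup (𝓞 E)) :
    c ∈ Fermat.Agent.S14.normClasses E M ↔ c ∈ (clNorm E M).range := by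
  constructor
  · rintro ⟨I, J, hJ, rfl⟩
    refine ⟨ClassGroup.mk0 I, ?_⟩
    rw [clNorm_mk0]
    congr 1
    exact Subtype.ext hJ.symm
  · rintro ⟨d, rfl⟩
    obtain ⟨I, rfl⟩ := ClassGroup.mk0_surjective d
    exact ⟨I, normNZ E M I, rfl, (clNorm_mk0 E M I).symm⟩

end norm

section act

variable {E M : Type} [Field E] [NumberField E] [Field M] [NumberField M] [Algebra E M]

/-- The action of `τ ∈ Gal(M/E)` on `𝓞 M`, as a ring isomorphism. -/
noncomputable def intAct (τ : M ≃ₐ[E] M) : 𝓞 M ≃+* 𝓞 M :=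
  (galRestrict (𝓞 E) E M (𝓞 M) τ).toRingEquiv

theorem intAct_apply (τ : M ≃ₐ[E] M) (x : 𝓞 M) :
    intAct τ x = galRestrict (𝓞 E) E M (𝓞 M) τ x := rfl

@[simp] theorem coe_intAct (τ : M ≃ₐ[E] M) (x : 𝓞 M) : ((intAct τ x : 𝓞 M) : M) = τ (x : M) :=
  algebraMap_galRestrict_apply (𝓞 E) τ x

/-- The action of `τ ∈ Gal(M/E)` on nonzero ideals of `𝓞 M`. -/
noncomputable def idAct (τ : M ≃ₐ[E] M) : (Ideal (𝓞 M))⁰ →* (Ideal (𝓞 M))⁰ :=
  mapNZ (intAct τ)

theorem coe_idAct (τ : M ≃ₐ[E] M) (I : (Ideal (𝓞 M))⁰) :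
    ((idAct τ I : (Ideal (𝓞 M))⁰) : Ideal (𝓞 M)) =
      (I : Ideal (𝓞 M)).map (galRestrict (𝓞 E) E M (𝓞 M) τ) := rfl

/-- The action of `τ ∈ Gal(M/E)` on the class group of `M`. -/
noncomputable def clAct (τ : M ≃ₐ[E] M) : ClassGroup (𝓞 M) →* ClassGroup (𝓞 M) :=
  clMap (intAct τ)

@[simp] theorem clAct_mk0 (τ : M ≃ₐ[E] M) (I : (Ideal (𝓞 M))⁰) :
    clAct τ (ClassGroup.mk0 I) = ClassGroup.mk0 (idAct τ I) :=
  clMap_mk0 _ I

theorem norm_intAct (τ : M ≃ₐ[E] M) (x : 𝓞 M) :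
    RingOfIntegers.norm E (intAct τ x) = RingOfIntegers.norm E x := by
  apply RingOfIntegers.ext
  rw [RingOfIntegers.coe_norm, RingOfIntegers.coe_norm, coe_intAct]
  exact Algebra.norm_eq_of_algEquiv τ (x : M)

theorem normNZ_idAct (τ : M ≃ₐ[E] M) (I : (Ideal (𝓞 M))⁰) :
    normNZ E M (idAct τ I) = normNZ E M I := by
  apply Subtype.ext
  rw [coe_normNZ, coe_normNZ, coe_idAct]
  exact Ideal.relNorm_map_algEquiv (galRestrict (𝓞 E) E M (𝓞 M) τ) (I : Ideal (𝓞 M))

theorem clNorm_clAct (τ : M ≃ₐ[E] M) (c : ClassGroup (𝓞 M)) :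
    clNorm E M (clAct τ c) = clNorm E M c := by
  obtain ⟨I, rfl⟩ := ClassGroup.mk0_surjective c
  rw [clAct_mk0, clNorm_mk0, clNorm_mk0, normNZ_idAct]

/-- `c ↦ τ c / c` on the class group of `M`. -/
noncomputable def clTwist (τ : M ≃ₐ[E] M) : ClassGroup (𝓞 M) →* ClassGroup (𝓞 M) where
  toFun c := clAct τ c / c
  map_one' := by simp
  map_mul' c d := by
    rw [map_mul]
    exact mul_div_mul_comm _ _ _ _

@[simp] theorem clTwist_apply (τ : M ≃ₐ[E] M) (c : ClassGroup (𝓞 M)) :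
    clTwist τ c = clAct τ c / c := rfl

theorem mem_ker_clTwist (τ : M ≃ₐ[E] M) (c : ClassGroup (𝓞 M)) :
    c ∈ (clTwist τ).ker ↔ clAct τ c = c := by
  rw [MonoidHom.mem_ker, clTwist_apply, div_eq_one]

theorem range_clTwist_le_ker_clNorm (τ : M ≃ₐ[E] M) :
    (clTwist τ).range ≤ (clNorm E M).ker := by
  rintro _ ⟨c, rfl⟩
  rw [MonoidHom.mem_ker, clTwist_apply, map_div, clNorm_clAct, div_self']

end act

end Fermat.Agent.S14FI
end MergeWrap_S14_FirstIneq_ClassNorm

section MergeWrap_S14_FirstIneq_CountInterface -- from S14/FirstIneq/CountInterface.lean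

set_option autoImplicit false

open NumberField
open scoped nonZeroDivisors

namespace Fermat.Agent.S14FI

/-- **(C1) Hilbert 90 + ambiguous ideals.**  If `(x) τI = (y) I` with `N y = N x`, then the class
of `I` is extended from `E`.
(Proof: `y / x` has norm one, so by Hilbert 90 there is `a ≠ 0` in `𝓞 M` with `y * τ a = x * a`;
then `(a) I` is `τ`-invariant, hence `G`-invariant, hence extended from `E` by
`S14Amb.exists_map_eq_of_invariant`.) -/
def InvClass : Prop :=
  ∀ (p : ℕ) (E M : Type) [Field E] [NumberField E] [Field M] [NumberField M] [Algebra E M]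
    [IsGalois E M] (τ : M ≃ₐ[E] M), p.Prime → Module.finrank E M = p → τ ≠ 1 →
    Fermat.Agent.S14.UnramifiedEverywhere E M →
    ∀ (I : (Ideal (𝓞 M))⁰) (x y : 𝓞 M) (hx : x ≠ 0) (hy : y ≠ 0),
      spanNZ x hx * idAct τ I = spanNZ y hy * I →
      RingOfIntegers.norm E y = RingOfIntegers.norm E x →
      ClassGroup.mk0 I ∈ (clExt (𝓞 E) (𝓞 M)).range

/-- **(C2) capitulation kernel.**  `[ker N_units : (τ - 1) units] ≤ |ker j|`.
(Proof: for a unit `u` of norm one, integral Hilbert 90 gives `ε ≠ 0` with `u * τ ε = ε`; then `(ε)`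
is `G`-invariant, so `(ε) = J 𝓞_M`, and `u ↦ [J] ∈ ker j` is injective modulo `(τ - 1) units`.) -/
def CapKer : Prop :=
  ∀ (p : ℕ) (E M : Type) [Field E] [NumberField E] [Field M] [NumberField M] [Algebra E M]
    [IsGalois E M] (τ : M ≃ₐ[E] M), p.Prime → Module.finrank E M = p → τ ≠ 1 →
    Fermat.Agent.S14.UnramifiedEverywhere E M →
    (unitTwist τ).range.relIndex (unitNorm E M).ker ≤ Nat.card (clExt (𝓞 E) (𝓞 M)).ker

/-- **(C3) invariant classes.**  `|Cl_M^τ| ≤ |j(Cl_E)| * [units_E : N units_M]`. -/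
def InvCount : Prop :=
  ∀ (p : ℕ) (E M : Type) [Field E] [NumberField E] [Field M] [NumberField M] [Algebra E M]
    [IsGalois E M] (τ : M ≃ₐ[E] M), p.Prime → Module.finrank E M = p → τ ≠ 1 →
    Fermat.Agent.S14.UnramifiedEverywhere E M → (unitNorm E M).range.index ≠ 0 →
    Nat.card (clTwist τ).ker ≤
      Nat.card (clExt (𝓞 E) (𝓞 M)).range * (unitNorm E M).range.index

end Fermat.Agent.S14FI
end MergeWrap_S14_FirstIneq_CountInterface

section MergeWrap_S14_FirstIneq_GroupCount -- from S14/FirstIneq/GroupCount.lean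

set_option autoImplicit false

namespace Fermat.Agent.S14FI

/-- Counting with a relation: if every element of `K` is related to some element of the finite
type `X`, and two elements of `K` related to the same `x` differ by an element of `H`, then
`[K : H ∩ K] ≤ |X|`. -/
theorem relIndex_le_card_of_rel {A : Type*} [Group A] (K H : Subgroup A) {X : Type*} [Finite X]
    (R : A → X → Prop) (hex : ∀ a ∈ K, ∃ x, R a x)
    (hinj : ∀ a ∈ K, ∀ b ∈ K, ∀ x, R a x → R b x → a⁻¹ * b ∈ H) :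
    H.relIndex K ≤ Nat.card X := by
  classical
  have hch : ∀ q : K ⧸ H.subgroupOf K, ∃ x, R ((Quotient.out q : K) : A) x :=
    fun q => hex _ (Quotient.out q).2
  let f : K ⧸ H.subgroupOf K → X := fun q => (hch q).choose
  have hf : ∀ q, R ((Quotient.out q : K) : A) (f q) := fun q => (hch q).choose_spec
  have hinjf : Function.Injective f := by
    intro q q' h
    have h1 := hinj _ (Quotient.out q).2 _ (Quotient.out q').2 (f q) (hf q) (h ▸ hf q')
    have h2 : ((Quotient.out q : K) : K ⧸ H.subgroupOf K) = (Quotient.out q' : K) := by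
      rw [QuotientGroup.eq]
      exact h1
    rw [QuotientGroup.out_eq', QuotientGroup.out_eq'] at h2
    exact h2
  exact Nat.card_le_card_of_injective f hinjf

/-- `|K| ≤ [K : H ∩ K] * |H|`. -/
theorem card_le_relIndex_mul_card {A : Type*} [Group A] [Finite A] (K H : Subgroup A) :
    Nat.card K ≤ H.relIndex K * Nat.card H := by
  have h1 := Subgroup.relIndex_mul_relIndex (⊥ : Subgroup A) (H ⊓ K) K bot_le inf_le_right
  rw [Subgroup.relIndex_bot_left, Subgroup.relIndex_bot_left, Subgroup.inf_relIndex_right] at h1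
  rw [← h1, mul_comm]
  exact Nat.mul_le_mul_left _ (Subgroup.card_le_of_le inf_le_left)

/-- If `t(A) ⊆ ker N` then `|N(A)| ≤ |ker t|`. -/
theorem card_range_le_card_ker {A B : Type*} [Group A] [Finite A] [Group B] (N : A →* B)
    (t : A →* A) (h : t.range ≤ N.ker) : Nat.card N.range ≤ Nat.card t.ker := by
  have h1 : Nat.card N.ker * Nat.card N.range = Nat.card A := by
    rw [← Subgroup.index_ker]; exact Subgroup.card_mul_index _
  have h2 : Nat.card t.ker * Nat.card t.range = Nat.card A := by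
    rw [← Subgroup.index_ker]; exact Subgroup.card_mul_index _
  have h3 : Nat.card t.range ≤ Nat.card N.ker := Subgroup.card_le_of_le h
  have h4 : 0 < Nat.card N.ker := Nat.card_pos
  have h5 : Nat.card N.ker * Nat.card N.range ≤ Nat.card N.ker * Nat.card t.ker := by
    rw [h1, ← h2, mul_comm]
    exact Nat.mul_le_mul_right _ h3
  exact Nat.le_of_mul_le_mul_left h5 h4

end Fermat.Agent.S14FI
end MergeWrap_S14_FirstIneq_GroupCount

section MergeWrap_S14_FirstIneq_InvCount -- from S14/FirstIneq/InvCount.lean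

set_option autoImplicit false

open NumberField
open scoped nonZeroDivisors

namespace Fermat.Agent.S14FI

section general

variable {S : Type*} [CommRing S] [IsDedekindDomain S]

theorem nz_ne_bot (I : (Ideal S)⁰) : (I : Ideal S) ≠ ⊥ := by
  have := mem_nonZeroDivisors_iff_ne_zero.mp I.2
  simpa using this

theorem nz_mul_right_cancel {a b c : (Ideal S)⁰} (h : a * c = b * c) : a = b := by
  apply Subtype.ext
  have h1 : (a : Ideal S) * (c : Ideal S) = (b : Ideal S) * (c : Ideal S) :=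
    congrArg Subtype.val h
  exact mul_right_cancel₀ (nz_ne_bot c) h1

theorem spanNZ_mul (x y : S) (hx : x ≠ 0) (hy : y ≠ 0) :
    spanNZ x hx * spanNZ y hy = spanNZ (x * y) (mul_ne_zero hx hy) := by
  apply Subtype.ext
  simp [Ideal.span_singleton_mul_span_singleton]

theorem spanNZ_congr {x y : S} (hx : x ≠ 0) (hy : y ≠ 0) (h : x = y) :
    spanNZ x hx = spanNZ y hy := by
  subst h; rfl

theorem spanNZ_unit_mul (v : Sˣ) (x : S) (hx : x ≠ 0) (hvx : (v : S) * x ≠ 0) :
    spanNZ ((v : S) * x) hvx = spanNZ x hx := by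
  apply Subtype.ext
  simp only [coe_spanNZ]
  exact Ideal.span_singleton_mul_left_unit v.isUnit x

theorem exists_spanNZ_of_mk0_eq_one {I : (Ideal S)⁰} (h : ClassGroup.mk0 I = 1) :
    ∃ (z : S) (hz : z ≠ 0), I = spanNZ z hz := by
  rw [ClassGroup.mk0_eq_one_iff] at h
  obtain ⟨z, hz⟩ := h.principal
  have hz0 : z ≠ 0 := by
    rintro rfl
    apply nz_ne_bot I
    rw [hz]
    simp
  exact ⟨z, hz0, Subtype.ext hz⟩

end general

section rel

variable {E M : Type} [Field E] [NumberField E] [Field M] [NumberField M] [Algebra E M]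

theorem idAct_spanNZ (τ : M ≃ₐ[E] M) (z : 𝓞 M) (hz : z ≠ 0) :
    idAct τ (spanNZ z hz) =
      spanNZ (intAct τ z) ((map_ne_zero_iff _ (intAct τ).injective).mpr hz) :=
  mapNZ_spanNZ _ z hz

/-- The relation between invariant classes and unit classes modulo norms: `c = [I]`,
`(x) τI = (y) I`, `N y = u N x`, `ξ = [u]`. -/
def InvRel (τ : M ≃ₐ[E] M) (c : ClassGroup (𝓞 M)) (ξ : (𝓞 E)ˣ ⧸ (unitNorm E M).range) : Prop :=
  ∃ (I : (Ideal (𝓞 M))⁰) (x y : 𝓞 M) (hx : x ≠ 0) (hy : y ≠ 0) (u : (𝓞 E)ˣ),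
    ClassGroup.mk0 I = c ∧ spanNZ x hx * idAct τ I = spanNZ y hy * I ∧
      RingOfIntegers.norm E y = (u : 𝓞 E) * RingOfIntegers.norm E x ∧
      (u : (𝓞 E)ˣ ⧸ (unitNorm E M).range) = ξ

theorem exists_invRel (τ : M ≃ₐ[E] M) (c : ClassGroup (𝓞 M)) (hc : c ∈ (clTwist τ).ker) :
    ∃ ξ, InvRel τ c ξ := by
  obtain ⟨I, rfl⟩ := ClassGroup.mk0_surjective c
  rw [mem_ker_clTwist, clAct_mk0] at hc
  obtain ⟨x, y, hx, hy, h⟩ := mk0_eq_mk0_iff_spanNZ.mp hc
  have hN := congrArg (normNZ E M) h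
  rw [map_mul, map_mul, normNZ_idAct, normNZ_spanNZ, normNZ_spanNZ] at hN
  have hN' := nz_mul_right_cancel hN
  have hN'' : Ideal.span {RingOfIntegers.norm E x} = Ideal.span {RingOfIntegers.norm E y} :=
    congrArg Subtype.val hN'
  rw [Ideal.span_singleton_eq_span_singleton] at hN''
  obtain ⟨u, hu⟩ := hN''
  exact ⟨(u : (𝓞 E)ˣ ⧸ (unitNorm E M).range), I, x, y, hx, hy, u, rfl, h,
    by rw [← hu, mul_comm], rfl⟩

theorem invRel_inj (τ : M ≃ₐ[E] M)
    (hIC : ∀ (I : (Ideal (𝓞 M))⁰) (x y : 𝓞 M) (hx : x ≠ 0) (hy : y ≠ 0),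
      spanNZ x hx * idAct τ I = spanNZ y hy * I →
      RingOfIntegers.norm E y = RingOfIntegers.norm E x →
      ClassGroup.mk0 I ∈ (clExt (𝓞 E) (𝓞 M)).range)
    (c c' : ClassGroup (𝓞 M)) (ξ : (𝓞 E)ˣ ⧸ (unitNorm E M).range)
    (h : InvRel τ c ξ) (h' : InvRel τ c' ξ) : c⁻¹ * c' ∈ (clExt (𝓞 E) (𝓞 M)).range := by
  obtain ⟨I, x, y, hx, hy, u, rfl, hI, hN, hu⟩ := h
  obtain ⟨I', x', y', hx', hy', u', rfl, hI', hN', hu'⟩ := h'
  have huu : u⁻¹ * u' ∈ (unitNorm E M).range := by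
    rw [← QuotientGroup.eq, hu, hu']
  obtain ⟨v, hv⟩ := huu
  obtain ⟨I'', hI''⟩ := ClassGroup.mk0_surjective (ClassGroup.mk0 I)⁻¹
  have hprin : ClassGroup.mk0 (I * I'') = 1 := by rw [map_mul, hI'', mul_inv_cancel]
  obtain ⟨z, hz0, hz⟩ := exists_spanNZ_of_mk0_eq_one hprin
  have hτz0 : intAct τ z ≠ 0 := (map_ne_zero_iff _ (intAct τ).injective).mpr hz0
  have hT : idAct τ I * idAct τ I'' = spanNZ (intAct τ z) hτz0 := by
    rw [← map_mul, hz, idAct_spanNZ]
  -- the relation for `I''`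
  have hI2 : spanNZ y hy * spanNZ z hz0 * idAct τ I'' =
      spanNZ x hx * spanNZ (intAct τ z) hτz0 * I'' := by
    apply nz_mul_right_cancel (c := idAct τ I)
    have e1 : spanNZ y hy * spanNZ z hz0 * idAct τ I'' * idAct τ I =
        spanNZ y hy * spanNZ z hz0 * (idAct τ I * idAct τ I'') := by ac_rfl
    have e2 : spanNZ x hx * spanNZ (intAct τ z) hτz0 * I'' * idAct τ I =
        (spanNZ x hx * idAct τ I) * spanNZ (intAct τ z) hτz0 * I'' := by ac_rfl
    have e3 : spanNZ y hy * I * spanNZ (intAct τ z) hτz0 * I'' =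
        spanNZ y hy * spanNZ (intAct τ z) hτz0 * (I * I'') := by ac_rfl
    rw [e1, e2, hT, hI, e3, hz]
    ac_rfl
  -- the relation for `I' * I''`
  have hX0 : x' * y * z ≠ 0 := mul_ne_zero (mul_ne_zero hx' hy) hz0
  have hvX0 : (v : 𝓞 M) * (x' * y * z) ≠ 0 := mul_ne_zero v.ne_zero hX0
  have hY0 : y' * x * intAct τ z ≠ 0 := mul_ne_zero (mul_ne_zero hy' hx) hτz0
  have key : spanNZ ((v : 𝓞 M) * (x' * y * z)) hvX0 * idAct τ (I' * I'') =
      spanNZ (y' * x * intAct τ z) hY0 * (I' * I'') := by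
    rw [spanNZ_unit_mul v _ hX0, ← spanNZ_mul _ _ (mul_ne_zero hx' hy) hz0,
      ← spanNZ_mul _ _ hx' hy, ← spanNZ_mul _ _ (mul_ne_zero hy' hx) hτz0,
      ← spanNZ_mul _ _ hy' hx, map_mul]
    have e1 : spanNZ x' hx' * spanNZ y hy * spanNZ z hz0 * (idAct τ I' * idAct τ I'') =
        (spanNZ x' hx' * idAct τ I') * (spanNZ y hy * spanNZ z hz0 * idAct τ I'') := by ac_rfl
    rw [e1, hI', hI2]
    ac_rfl
  have hnorm : RingOfIntegers.norm E (y' * x * intAct τ z) =
      RingOfIntegers.norm E ((v : 𝓞 M) * (x' * y * z)) := by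
    have hv' : RingOfIntegers.norm E (v : 𝓞 M) = ((u⁻¹ * u' : (𝓞 E)ˣ) : 𝓞 E) := by
      rw [← hv]; rfl
    have hu1 : ((u⁻¹ : (𝓞 E)ˣ) : 𝓞 E) * (u : 𝓞 E) = 1 := Units.inv_mul u
    rw [map_mul, map_mul, map_mul, map_mul, map_mul, norm_intAct, hN, hN', hv', Units.val_mul]
    linear_combination (-(u' : 𝓞 E) * RingOfIntegers.norm E x' * RingOfIntegers.norm E x *
      RingOfIntegers.norm E z) * hu1
  have hfin := hIC (I' * I'') _ _ hvX0 hY0 key hnorm
  rw [map_mul, hI'', mul_comm] at hfin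
  exact hfin

end rel

theorem invCount_of_invClass (h : InvClass) : InvCount := by
  intro p E M _ _ _ _ _ _ τ hp hdeg hτ hunr hidx
  have hfi : (unitNorm E M).range.FiniteIndex := ⟨hidx⟩
  have hfin : Finite ((𝓞 E)ˣ ⧸ (unitNorm E M).range) := Subgroup.finite_quotient_of_finiteIndex
  have h1 := relIndex_le_card_of_rel (clTwist τ).ker (clExt (𝓞 E) (𝓞 M)).range (InvRel τ)
    (fun c hc => exists_invRel τ c hc)
    (fun c _ c' _ ξ hR hR' => invRel_inj τ (h p E M τ hp hdeg hτ hunr) c c' ξ hR hR')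
  have h2 := card_le_relIndex_mul_card (clTwist τ).ker (clExt (𝓞 E) (𝓞 M)).range
  calc Nat.card (clTwist τ).ker
      ≤ (clExt (𝓞 E) (𝓞 M)).range.relIndex (clTwist τ).ker *
          Nat.card (clExt (𝓞 E) (𝓞 M)).range := h2
    _ ≤ Nat.card ((𝓞 E)ˣ ⧸ (unitNorm E M).range) * Nat.card (clExt (𝓞 E) (𝓞 M)).range :=
        Nat.mul_le_mul_right _ h1
    _ = Nat.card (clExt (𝓞 E) (𝓞 M)).range * (unitNorm E M).range.index := by
        rw [mul_comm]; rfl

end Fermat.Agent.S14FI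
end MergeWrap_S14_FirstIneq_InvCount

section MergeWrap_S14_FirstIneq_Count -- from S14/FirstIneq/Count.lean

set_option autoImplicit false

open NumberField
open scoped nonZeroDivisors

namespace Fermat.Agent.S14FI

/-- The first inequality from its three inputs. -/
theorem firstIneq_of_inputs (hIC : InvClass) (hCK : CapKer) (hUI : UnitIndex) :
    Fermat.Agent.S14.FirstIneq := by
  intro p E M _ _ _ _ _ _ hp hp2 hdeg hunr
  have hcard : Nat.card (M ≃ₐ[E] M) = p := by rw [IsGalois.card_aut_eq_finrank, hdeg]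
  obtain ⟨τ, hτ⟩ : ∃ τ : M ≃ₐ[E] M, τ ≠ 1 := by
    have hnt : Nontrivial (M ≃ₐ[E] M) := by
      rw [← Finite.one_lt_card_iff_nontrivial, hcard]
      exact hp.one_lt
    exact exists_ne 1
  obtain ⟨hidx, hrel⟩ := hUI p E M τ hp hp2 hdeg hτ
  have hC3 := invCount_of_invClass hIC p E M τ hp hdeg hτ hunr hidx
  have hC2 := hCK p E M τ hp hdeg hτ hunr
  have hD := card_range_le_card_ker (clNorm E M) (clTwist τ) (range_clTwist_le_ker_clNorm τ)
  have hj : Nat.card (clExt (𝓞 E) (𝓞 M)).ker * Nat.card (clExt (𝓞 E) (𝓞 M)).range =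
      Nat.card (ClassGroup (𝓞 E)) := by
    rw [← Subgroup.index_ker]; exact Subgroup.card_mul_index _
  by_contra hall
  have hall' : ∀ c : ClassGroup (𝓞 E), c ∈ Fermat.Agent.S14.normClasses E M := by
    intro c
    by_contra hc
    exact hall ⟨c, hc⟩
  have hsurj : (clNorm E M).range = ⊤ := by
    rw [eq_top_iff]
    intro c _
    exact (mem_normClasses_iff E M c).mp (hall' c)
  have hcr : Nat.card (clNorm E M).range = Nat.card (ClassGroup (𝓞 E)) := by
    rw [hsurj]; exact Subgroup.card_top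
  rw [hrel] at hC2
  have hr : 0 < Nat.card (clExt (𝓞 E) (𝓞 M)).range := Nat.card_pos
  have hi : 0 < (unitNorm E M).range.index := Nat.pos_of_ne_zero hidx
  have h1 : Nat.card (ClassGroup (𝓞 E)) ≤
      Nat.card (clExt (𝓞 E) (𝓞 M)).range * (unitNorm E M).range.index :=
    hcr ▸ (hD.trans hC3)
  have h2 : p * (unitNorm E M).range.index * Nat.card (clExt (𝓞 E) (𝓞 M)).range ≤
      Nat.card (ClassGroup (𝓞 E)) := by
    rw [← hj]
    exact Nat.mul_le_mul_right _ hC2
  have h3 : p * ((unitNorm E M).range.index * Nat.card (clExt (𝓞 E) (𝓞 M)).range) ≤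
      1 * ((unitNorm E M).range.index * Nat.card (clExt (𝓞 E) (𝓞 M)).range) := by
    rw [← mul_assoc, one_mul]
    exact (h2.trans h1).trans (le_of_eq (mul_comm _ _))
  have h4 := Nat.le_of_mul_le_mul_right h3 (Nat.mul_pos hi hr)
  exact absurd hp.one_lt (not_lt.mpr h4)

end Fermat.Agent.S14FI
end MergeWrap_S14_FirstIneq_Count

section MergeWrap_S14_FirstIneq_Ambiguous -- from S14/FirstIneq/Ambiguous.lean

set_option autoImplicit false

namespace Fermat.Agent.S14Amb

open NumberField Fermat.Agent.S14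
open scoped Pointwise

variable (E M : Type) [Field E] [NumberField E] [Field M] [NumberField M]
  [Algebra E M] [IsGalois E M]

omit [NumberField M] in
/-- The pointwise action of the Galois group on ideals of the ring of integers is `Ideal.map` of
the restricted automorphism. -/
theorem smul_eq_map_galRestrict (σ : M ≃ₐ[E] M) (I : Ideal (𝓞 M)) :
    σ • I = I.map (galRestrict (𝓞 E) E M (𝓞 M) σ) := by
  rw [Ideal.pointwise_smul_def]
  have h : ∀ x : 𝓞 M, MulSemiringAction.toRingHom (M ≃ₐ[E] M) (𝓞 M) σ x =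
      galRestrict (𝓞 E) E M (𝓞 M) σ x := by
    intro x
    apply RingOfIntegers.ext
    exact (algebraMap_galRestrict_apply (𝓞 E) σ x).symm
  apply le_antisymm
  · rw [Ideal.map_le_iff_le_comap]
    intro x hx
    rw [Ideal.mem_comap, h]
    exact Ideal.mem_map_of_mem _ hx
  · rw [Ideal.map_le_iff_le_comap]
    intro x hx
    rw [Ideal.mem_comap, ← h]
    exact Ideal.mem_map_of_mem _ hx

variable {E M}

omit [NumberField E] [IsGalois E M] in
/-- In an extension which is unramified in the sense of `UnramifiedEverywhere`, Mathlib's inertia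
groups are trivial. -/
theorem inertia_eq_bot (hunr : UnramifiedEverywhere E M) (P : Ideal (𝓞 M)) [hP : P.IsPrime]
    (hP0 : P ≠ ⊥) : Ideal.inertia (M ≃ₐ[E] M) P = ⊥ := by
  rw [eq_bot_iff]
  intro σ hσ
  rw [Subgroup.mem_bot]
  refine hunr P hP hP0 σ ?_
  intro x
  exact ⟨σ • x - x, hσ x, rfl⟩

/-- Bridge from `UnramifiedEverywhere` to Mathlib's ramification index. -/
theorem ramificationIdx_eq_one_of_unramified (hunr : UnramifiedEverywhere E M)
    (P : Ideal (𝓞 M)) [hP : P.IsPrime] (hP0 : P ≠ ⊥) :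
    P.ramificationIdx (𝓞 E) = 1 := by
  have h1 := Ideal.card_inertia_eq_ramificationIdxIn (G := M ≃ₐ[E] M) (P.under (𝓞 E)) P
  have h2 := Ideal.ramificationIdxIn_eq_ramificationIdx (P.under (𝓞 E)) P (M ≃ₐ[E] M)
  rw [← h2, ← h1, inertia_eq_bot hunr P hP0]
  exact Nat.card_unique

/-- An ideal extended from the base is Galois-invariant. -/
theorem smul_map_algebraMap (σ : M ≃ₐ[E] M) (J : Ideal (𝓞 E)) :
    σ • J.map (algebraMap (𝓞 E) (𝓞 M)) = J.map (algebraMap (𝓞 E) (𝓞 M)) := by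
  rw [Ideal.pointwise_smul_def, Ideal.map_map]
  congr 1
  ext x
  simp

/-- **Ambiguous ideals.** In an unramified Galois extension of number fields, a Galois-invariant
ideal of the ring of integers is extended from the base (pointwise-action form). -/
theorem exists_map_eq_of_smul_eq (hunr : UnramifiedEverywhere E M) (I : Ideal (𝓞 M))
    (hI : ∀ σ : M ≃ₐ[E] M, σ • I = I) :
    ∃ J : Ideal (𝓞 E), J.map (algebraMap (𝓞 E) (𝓞 M)) = I := by
  induction I using WellFoundedGT.induction with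
  | ind I ih =>
  by_cases h0 : I = ⊥
  · exact ⟨⊥, by rw [h0, Ideal.map_bot]⟩
  by_cases h1 : I = ⊤
  · exact ⟨⊤, by rw [h1, Ideal.map_top]⟩
  obtain ⟨P, hPmax, hIP⟩ := Ideal.exists_le_maximal I h1
  have hPprime : P.IsPrime := hPmax.isPrime
  have hP0 : P ≠ ⊥ := fun h => h0 (le_bot_iff.mp (h ▸ hIP))
  set p : Ideal (𝓞 E) := P.under (𝓞 E) with hp
  have hpmax : p.IsMaximal := Ideal.IsMaximal.under (𝓞 E) P
  have hp0 : p ≠ ⊥ := Ideal.under_ne_bot (𝓞 E) hP0
  have hprod := Ideal.map_algebraMap_eq_finsetProd_pow (R := 𝓞 M) (S := 𝓞 E) (p := p) hp0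
  -- every prime over `p` contains `I`
  have hle : ∀ Q ∈ (p.primesOver (𝓞 M)).toFinset, I ≤ Q := by
    intro Q hQ
    rw [Set.mem_toFinset] at hQ
    have := hQ.1
    have := hQ.2
    obtain ⟨σ, hσ⟩ := Ideal.exists_smul_eq_of_isGaloisGroup p P Q (M ≃ₐ[E] M)
    rw [← hσ, ← hI σ]
    exact Ideal.pointwise_smul_le_pointwise_smul_iff.mpr hIP
  have hram : ∀ Q ∈ (p.primesOver (𝓞 M)).toFinset, Q.ramificationIdx (𝓞 E) = 1 := by
    intro Q hQ
    rw [Set.mem_toFinset] at hQ
    have := hQ.1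
    have hQ0 : Q ≠ ⊥ := by
      intro h
      have h2 := hQ.2.over
      rw [h] at h2
      exact hp0 (by rw [h2]; exact Ideal.under_bot _ _)
    exact ramificationIdx_eq_one_of_unramified hunr Q hQ0
  have hprod' : p.map (algebraMap (𝓞 E) (𝓞 M)) = ∏ Q ∈ (p.primesOver (𝓞 M)).toFinset, Q ^ 1 := by
    rw [hprod]
    exact Finset.prod_congr rfl (fun Q hQ => by rw [hram Q hQ])
  have hinf : ((p.primesOver (𝓞 M)).toFinset.inf fun Q => Q ^ 1) =
      ∏ Q ∈ (p.primesOver (𝓞 M)).toFinset, Q ^ 1 := by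
    refine IsDedekindDomain.inf_pow_eq_prod_of_prime _ _ _ ?_ ?_
    · intro Q hQ
      rw [Set.mem_toFinset] at hQ
      have hQ0 : Q ≠ ⊥ := by
        intro h
        have h2 := hQ.2.over
        rw [h] at h2
        exact hp0 (by rw [h2]; exact Ideal.under_bot _ _)
      exact (Ideal.prime_iff_isPrime hQ0).mpr hQ.1
    · intro Q _ Q' _ h
      exact h
  have hIle : I ≤ p.map (algebraMap (𝓞 E) (𝓞 M)) := by
    rw [hprod', ← hinf]
    refine Finset.le_inf ?_
    intro Q hQ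
    rw [pow_one]
    exact hle Q hQ
  obtain ⟨I', hI'⟩ := Ideal.dvd_iff_le.mpr hIle
  have hpB0 : p.map (algebraMap (𝓞 E) (𝓞 M)) ≠ ⊥ := Ideal.map_ne_bot_of_ne_bot hp0
  have hI'0 : I' ≠ ⊥ := by
    intro h
    rw [h, Ideal.mul_bot] at hI'
    exact h0 hI'
  have hI'inv : ∀ σ : M ≃ₐ[E] M, σ • I' = I' := by
    intro σ
    have h2 := hI σ
    rw [hI', Ideal.pointwise_smul_def, Ideal.map_mul, ← Ideal.pointwise_smul_def,
      ← Ideal.pointwise_smul_def, smul_map_algebraMap] at h2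
    exact mul_left_cancel₀ hpB0 h2
  have hlt : I < I' := by
    refine lt_of_le_of_ne (hI' ▸ Ideal.mul_le_right ) ?_
    intro h
    have h2 : p.map (algebraMap (𝓞 E) (𝓞 M)) * I' = 1 * I' := by rw [one_mul, ← hI', h]
    have h3 := mul_right_cancel₀ hI'0 h2
    have h4 : p.map (algebraMap (𝓞 E) (𝓞 M)) ≤ P := Ideal.map_le_iff_le_comap.mpr le_rfl
    rw [h3, Ideal.one_eq_top] at h4
    exact hPmax.ne_top (top_le_iff.mp h4)
  obtain ⟨J', hJ'⟩ := ih I' hlt hI'inv
  exact ⟨p * J', by rw [Ideal.map_mul, hJ', ← hI']⟩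

/-- **Ambiguous ideals**, `galRestrict` form. -/
theorem exists_map_eq_of_invariant (E M : Type) [Field E] [NumberField E] [Field M]
    [NumberField M] [Algebra E M] [IsGalois E M] (hunr : UnramifiedEverywhere E M)
    (I : Ideal (𝓞 M))
    (hI : ∀ σ : M ≃ₐ[E] M, I.map (galRestrict (𝓞 E) E M (𝓞 M) σ) = I) :
    ∃ J : Ideal (𝓞 E), J.map (algebraMap (𝓞 E) (𝓞 M)) = I :=
  exists_map_eq_of_smul_eq hunr I (fun σ => by rw [smul_eq_map_galRestrict]; exact hI σ)

end Fermat.Agent.S14Amb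
end MergeWrap_S14_FirstIneq_Ambiguous

section MergeWrap_S14_FirstIneq_UnitRank -- from S14/FirstIneq/UnitRank.lean

set_option autoImplicit false

open NumberField

namespace Fermat.Agent.S14FI

/-- (B) Unit ranks in a Galois extension of odd degree: `rank M + 1 = [M : E] * (rank E + 1)`. -/
theorem units_rank_add_one (E M : Type*) [Field E] [NumberField E] [Field M] [NumberField M]
    [Algebra E M] [IsGalois E M] (hodd : Odd (Module.finrank E M)) :
    NumberField.Units.rank M + 1 = Module.finrank E M * (NumberField.Units.rank E + 1) := by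
  have h1 : IsUnramifiedAtInfinitePlaces E M := IsUnramifiedAtInfinitePlaces_of_odd_finrank hodd
  have h2 := IsUnramifiedAtInfinitePlaces.card_infinitePlace E M
  have h3 : 0 < Fintype.card (InfinitePlace M) := Fintype.card_pos
  have h4 : 0 < Fintype.card (InfinitePlace E) := Fintype.card_pos
  unfold NumberField.Units.rank
  rw [Nat.sub_add_cancel h3, Nat.sub_add_cancel h4, h2, mul_comm]

end Fermat.Agent.S14FI
end MergeWrap_S14_FirstIneq_UnitRank

section MergeWrap_S14_FirstIneq_UnitBridge -- from S14/FirstIneq/UnitBridge.lean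

set_option autoImplicit false
set_option linter.unusedSectionVars false

open NumberField

namespace Fermat.Agent.S14FI

variable {E M : Type} [Field E] [NumberField E] [Field M] [NumberField M] [Algebra E M]

/-- The inclusion of units `(𝓞 E)ˣ → (𝓞 M)ˣ`. -/
noncomputable def unitIncl (E M : Type) [Field E] [NumberField E] [Field M] [NumberField M]
    [Algebra E M] : (𝓞 E)ˣ →* (𝓞 M)ˣ :=
  Units.map (algebraMap (𝓞 E) (𝓞 M) : 𝓞 E →* 𝓞 M)

theorem coe_coe_unitIncl (x : (𝓞 E)ˣ) :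
    (((unitIncl E M x : (𝓞 M)ˣ) : 𝓞 M) : M) = algebraMap E M ((x : 𝓞 E) : E) := rfl

theorem unitIncl_injective : Function.Injective (unitIncl E M) := by
  intro a b h
  have h1 : (algebraMap (𝓞 E) (𝓞 M)) (a : 𝓞 E) = (algebraMap (𝓞 E) (𝓞 M)) (b : 𝓞 E) := by
    have := congrArg (fun u : (𝓞 M)ˣ => (u : 𝓞 M)) h
    simpa [unitIncl] using this
  exact Units.ext (FaithfulSMul.algebraMap_injective (𝓞 E) (𝓞 M) h1)

theorem coe_unitAct (τ : M ≃ₐ[E] M) (u : (𝓞 M)ˣ) :
    ((unitAct τ u : (𝓞 M)ˣ) : 𝓞 M) = galRestrict (𝓞 E) E M (𝓞 M) τ (u : 𝓞 M) := rfl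

theorem coe_coe_unitAct (τ : M ≃ₐ[E] M) (u : (𝓞 M)ˣ) :
    (((unitAct τ u : (𝓞 M)ˣ) : 𝓞 M) : M) = τ ((u : 𝓞 M) : M) := by
  rw [coe_unitAct]
  exact algebraMap_galRestrict_apply (𝓞 E) τ (u : 𝓞 M)

theorem unit_ext_coe {u v : (𝓞 M)ˣ} (h : ((u : 𝓞 M) : M) = ((v : 𝓞 M) : M)) : u = v :=
  Units.ext (RingOfIntegers.ext h)

theorem unitAct_iterate (τ : M ≃ₐ[E] M) (i : ℕ) (u : (𝓞 M)ˣ) :
    (unitAct τ)^[i] u = unitAct (τ ^ i) u := by
  induction i with
  | zero =>
    apply unit_ext_coe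
    rw [coe_coe_unitAct]
    simp
  | succ n ih =>
    rw [Function.iterate_succ_apply', ih]
    apply unit_ext_coe
    rw [coe_coe_unitAct, coe_coe_unitAct, coe_coe_unitAct, pow_succ']
    rfl

theorem unitAct_unitIncl (τ : M ≃ₐ[E] M) (x : (𝓞 E)ˣ) :
    unitAct τ (unitIncl E M x) = unitIncl E M x := by
  apply unit_ext_coe
  rw [coe_coe_unitAct, coe_coe_unitIncl, AlgEquiv.commutes]

theorem coe_coe_prod_units {ι : Type*} (s : Finset ι) (f : ι → (𝓞 M)ˣ) :
    ((((∏ i ∈ s, f i : (𝓞 M)ˣ)) : 𝓞 M) : M) = ∏ i ∈ s, (((f i : (𝓞 M)ˣ) : 𝓞 M) : M) := by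
  classical
  induction s using Finset.induction_on with
  | empty => simp
  | insert a s ha ih =>
    rw [Finset.prod_insert ha, Finset.prod_insert ha, Units.val_mul, ← ih]
    simp

section prime

variable [IsGalois E M] {p : ℕ} (hp : p.Prime) (hfin : Module.finrank E M = p)
  (τ : M ≃ₐ[E] M) (hτ : τ ≠ 1)

include hp hfin

theorem gal_pow_prime_eq_one : τ ^ p = 1 := by
  have hcard : Nat.card (M ≃ₐ[E] M) = p := by
    rw [IsGalois.card_aut_eq_finrank, hfin]
  rw [← hcard]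
  exact pow_card_eq_one'

include hτ

theorem gal_orderOf_eq : orderOf τ = p :=
  haveI := Fact.mk hp
  orderOf_eq_prime (gal_pow_prime_eq_one hp hfin τ) hτ

theorem gal_mem_zpowers (σ : M ≃ₐ[E] M) : σ ∈ Subgroup.zpowers τ := by
  have hcard : Nat.card (M ≃ₐ[E] M) = p := by
    rw [IsGalois.card_aut_eq_finrank, hfin]
  have h1 : Nat.card (Subgroup.zpowers τ) = p := by
    rw [Nat.card_zpowers, gal_orderOf_eq hp hfin τ hτ]
  have h2 : Subgroup.zpowers τ = ⊤ := by
    apply Subgroup.eq_top_of_card_eq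
    rw [h1, hcard]
  rw [h2]; trivial

omit hτ in
/-- (u0) -/
theorem unitAct_iterate_prime (u : (𝓞 M)ˣ) : (unitAct τ)^[p] u = u := by
  rw [unitAct_iterate, gal_pow_prime_eq_one hp hfin τ]
  apply unit_ext_coe
  rw [coe_coe_unitAct]
  rfl

theorem gal_fixed_of_fixed (x : M) (hx : τ x = x) (σ : M ≃ₐ[E] M) : σ x = x := by
  have h1 : τ ∈ MulAction.stabilizer (M ≃ₐ[E] M) x := by
    rw [MulAction.mem_stabilizer_iff]
    exact hx
  have h2 : Subgroup.zpowers τ ≤ MulAction.stabilizer (M ≃ₐ[E] M) x :=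
    (Subgroup.zpowers_le).mpr h1
  have h3 := h2 (gal_mem_zpowers hp hfin τ hτ σ)
  rw [MulAction.mem_stabilizer_iff] at h3
  exact h3

/-- (u1) -/
theorem mem_range_unitIncl_of_fixed (u : (𝓞 M)ˣ) (hu : unitAct τ u = u) :
    u ∈ (unitIncl E M).range := by
  -- elements fixed by `τ` come from `𝓞 E`
  have key : ∀ w : (𝓞 M)ˣ, unitAct τ w = w →
      ∃ y : 𝓞 E, algebraMap E M (y : E) = ((w : 𝓞 M) : M) := by
    intro w hw
    have hτw : τ ((w : 𝓞 M) : M) = ((w : 𝓞 M) : M) := by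
      rw [← coe_coe_unitAct, hw]
    have hall := gal_fixed_of_fixed hp hfin τ hτ _ hτw
    obtain ⟨x, hx⟩ := (IsGalois.mem_range_algebraMap_iff_fixed (F := E) (E := M) _).mpr hall
    have hint : IsIntegral ℤ x := by
      have h1 : IsIntegral ℤ (algebraMap E M x) := by
        rw [hx]; exact RingOfIntegers.isIntegral_coe (w : 𝓞 M)
      exact (isIntegral_algebraMap_iff (FaithfulSMul.algebraMap_injective E M)).mp h1
    exact ⟨⟨x, hint⟩, hx⟩
  obtain ⟨y, hy⟩ := key u hu
  have hu' : unitAct τ u⁻¹ = u⁻¹ := by rw [map_inv, hu]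
  obtain ⟨z, hz⟩ := key u⁻¹ hu'
  have hyz : y * z = 1 := by
    apply RingOfIntegers.ext
    apply FaithfulSMul.algebraMap_injective E M
    have h0 : ((u : 𝓞 M) : M) * (((u⁻¹ : (𝓞 M)ˣ) : 𝓞 M) : M) = 1 := by
      have h00 : (u : 𝓞 M) * ((u⁻¹ : (𝓞 M)ˣ) : 𝓞 M) = 1 := by
        rw [← Units.val_mul, mul_inv_cancel]; rfl
      simp
    have h1 : ((y * z : 𝓞 E) : E) = (y : E) * (z : E) := by simp
    rw [h1, map_mul, hy, hz, h0]
    simp
  have hzy : z * y = 1 := by rw [mul_comm]; exact hyz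
  refine ⟨⟨y, z, hyz, hzy⟩, ?_⟩
  apply unit_ext_coe
  rw [coe_coe_unitIncl]
  exact hy

theorem gal_prod_eq_prod_range (f : (M ≃ₐ[E] M) → M) :
    ∏ σ : M ≃ₐ[E] M, f σ = ∏ i ∈ Finset.range p, f (τ ^ i) := by
  classical
  have hord := gal_orderOf_eq hp hfin τ hτ
  symm
  apply Finset.prod_bij (fun i _ => τ ^ i)
  · intro i _; exact Finset.mem_univ _
  · intro i hi j hj hij
    have hi' : i < orderOf τ := by rw [hord]; exact Finset.mem_range.mp hi
    have hj' : j < orderOf τ := by rw [hord]; exact Finset.mem_range.mp hj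
    exact pow_injOn_Iio_orderOf hi' hj' hij
  · intro σ _
    have hσ := gal_mem_zpowers hp hfin τ hτ σ
    have hfo : IsOfFinOrder τ := isOfFinOrder_of_finite τ
    rw [← hfo.mem_powers_iff_mem_zpowers] at hσ
    obtain ⟨k, hk⟩ := (Submonoid.mem_powers_iff _ _).mp hσ
    refine ⟨k % p, Finset.mem_range.mpr (Nat.mod_lt _ hp.pos), ?_⟩
    rw [← hk, ← hord, pow_mod_orderOf]
  · intro i _; rfl

/-- (u2) -/
theorem unitIncl_unitNorm (u : (𝓞 M)ˣ) :
    unitIncl E M (unitNorm E M u) = ∏ i ∈ Finset.range p, (unitAct τ)^[i] u := by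
  apply unit_ext_coe
  rw [coe_coe_unitIncl, coe_coe_prod_units]
  have h1 : (((unitNorm E M u : (𝓞 E)ˣ) : 𝓞 E) : E) = Algebra.norm E ((u : 𝓞 M) : M) := by
    show ((RingOfIntegers.norm E (u : 𝓞 M) : 𝓞 E) : E) = _
    exact RingOfIntegers.coe_norm E (u : 𝓞 M)
  rw [h1, Algebra.norm_eq_prod_automorphisms E ((u : 𝓞 M) : M),
    gal_prod_eq_prod_range hp hfin τ hτ (fun σ => σ ((u : 𝓞 M) : M))]
  apply Finset.prod_congr rfl
  intro i _
  rw [unitAct_iterate, coe_coe_unitAct]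

theorem ker_unitTwist_eq_range : (unitTwist τ).ker = (unitIncl E M).range := by
  ext u
  rw [MonoidHom.mem_ker, unitTwist_apply, div_eq_one]
  constructor
  · intro h
    exact mem_range_unitIncl_of_fixed hp hfin τ hτ u h
  · rintro ⟨x, rfl⟩
    exact unitAct_unitIncl τ x

/-- `(𝓞 E)ˣ ≃* ker (unitTwist τ)`. -/
noncomputable def unitsEquivKerTwist : (𝓞 E)ˣ ≃* (unitTwist τ).ker :=
  (MonoidHom.ofInjective (unitIncl_injective (E := E) (M := M))).trans
    (MulEquiv.subgroupCongr (ker_unitTwist_eq_range hp hfin τ hτ).symm)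

/-- (u3) -/
theorem finrank_ker_unitTwist :
    Module.finrank ℤ (Additive (unitTwist τ).ker) = NumberField.Units.rank E := by
  rw [← NumberField.Units.finrank_eq E]
  exact ((MulEquiv.toAdditive (unitsEquivKerTwist hp hfin τ hτ)).toIntLinearEquiv.finrank_eq).symm

omit hτ in
/-- (u4) the rank relation used to compute the Herbrand exponent. -/
theorem units_rank_eq_add (hp2 : p ≠ 2) :
    NumberField.Units.rank M
      = NumberField.Units.rank E + (p - 1) * (NumberField.Units.rank E + 1) := by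
  have hodd : Odd (Module.finrank E M) := by
    rw [hfin]; exact hp.odd_of_ne_two hp2
  have h := units_rank_add_one E M hodd
  rw [hfin] at h
  obtain ⟨q, rfl⟩ : ∃ q, p = q + 1 := ⟨p - 1, (Nat.succ_pred_eq_of_pos hp.pos).symm⟩
  simp only [Nat.add_sub_cancel]
  have h' : NumberField.Units.rank M + 1
      = (NumberField.Units.rank E + q * (NumberField.Units.rank E + 1)) + 1 := by
    rw [h]; ring
  exact Nat.succ_injective h'

/-! ### The statements in the exact shape requested by the Herbrand assembly -/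

omit hτ in
/-- (u0), interface form. -/
theorem unitBridge_u0 : ∀ u : (𝓞 M)ˣ, (unitAct τ)^[p] u = u :=
  unitAct_iterate_prime hp hfin τ

/-- (u1), interface form. -/
theorem unitBridge_u1 : ∀ u : (𝓞 M)ˣ, unitAct τ u = u →
    u ∈ (Units.map (algebraMap (𝓞 E) (𝓞 M) : 𝓞 E →* 𝓞 M)).range :=
  mem_range_unitIncl_of_fixed hp hfin τ hτ

omit hp hfin hτ in
/-- (u1'), injectivity of `j`. -/
theorem unitBridge_u1_inj :
    Function.Injective (Units.map (algebraMap (𝓞 E) (𝓞 M) : 𝓞 E →* 𝓞 M)) :=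
  unitIncl_injective

omit hp hfin hτ in
/-- (u1''), the image of `j` is fixed. -/
theorem unitBridge_u1_fixed (σ : M ≃ₐ[E] M) (x : (𝓞 E)ˣ) :
    unitAct σ (Units.map (algebraMap (𝓞 E) (𝓞 M) : 𝓞 E →* 𝓞 M) x)
      = Units.map (algebraMap (𝓞 E) (𝓞 M) : 𝓞 E →* 𝓞 M) x :=
  unitAct_unitIncl σ x

/-- (u2), interface form. -/
theorem unitBridge_u2 : ∀ u : (𝓞 M)ˣ,
    Units.map (algebraMap (𝓞 E) (𝓞 M) : 𝓞 E →* 𝓞 M) (unitNorm E M u)
      = ∏ i ∈ Finset.range p, (unitAct τ)^[i] u :=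
  unitIncl_unitNorm hp hfin τ hτ

/-- (u3), interface form. -/
theorem unitBridge_u3 :
    Module.finrank ℤ (Additive (unitTwist τ).ker) = NumberField.Units.rank E :=
  finrank_ker_unitTwist hp hfin τ hτ

end prime

end Fermat.Agent.S14FI
end MergeWrap_S14_FirstIneq_UnitBridge

section MergeWrap_S14_FirstIneq_CapKer -- from S14/FirstIneq/CapKer.lean

/-!
# S14, (H1) first inequality, piece (C2): the capitulation kernel (helper70)

`capKer : CapKer`:  `[ker N_units : (τ - 1) units] ≤ |ker (Cl_E → Cl_M)|`.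
-/

set_option autoImplicit false
set_option linter.unusedSectionVars false

open NumberField
open scoped nonZeroDivisors Pointwise

namespace Fermat.Agent.S14FI

section capker

variable {E M : Type} [Field E] [NumberField E] [Field M] [NumberField M] [Algebra E M]
  [IsGalois E M]

lemma ck_norm_coe (u : (𝓞 M)ˣ) (hu : u ∈ (unitNorm E M).ker) :
    Algebra.norm E (algebraMap (𝓞 M) M (u : 𝓞 M)) = 1 := by
  have h1 : unitNorm E M u = 1 := hu
  have h2 : RingOfIntegers.norm E (u : 𝓞 M) = 1 := by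
    have := congrArg (fun v : (𝓞 E)ˣ => (v : 𝓞 E)) h1
    simpa [unitNorm] using this
  have h3 := congrArg (fun v : 𝓞 E => (v : E)) h2
  simpa using h3

/-- integral Hilbert 90 for a unit of norm one -/
lemma ck_hilbert90 {p : ℕ} (hp : p.Prime) (hfin : Module.finrank E M = p) (τ : M ≃ₐ[E] M)
    (hτ : τ ≠ 1) (u : (𝓞 M)ˣ) (hu : u ∈ (unitNorm E M).ker) :
    ∃ ε : 𝓞 M, ε ≠ 0 ∧ (u : 𝓞 M) * galRestrict (𝓞 E) E M (𝓞 M) τ ε = ε := by
  have : Fact p.Prime := ⟨hp⟩
  have hcard : Nat.card (M ≃ₐ[E] M) = p := by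
    rw [IsGalois.card_aut_eq_finrank, hfin]
  have : IsCyclic (M ≃ₐ[E] M) := isCyclic_of_prime_card hcard
  exact groupCohomology.exists_mul_galRestrict_of_norm_eq_one (A := 𝓞 E) (K := E) (L := M)
    (B := 𝓞 M) (g := τ) (gal_mem_zpowers hp hfin τ hτ) (ck_norm_coe u hu)


/-- the principal ideal `(ε)` with `u * τ ε = ε` is extended from the base -/
lemma ck_exists_J {p : ℕ} (hp : p.Prime) (hfin : Module.finrank E M = p) (τ : M ≃ₐ[E] M)
    (hτ : τ ≠ 1) (hunr : Fermat.Agent.S14.UnramifiedEverywhere E M) (ε : 𝓞 M) (hε : ε ≠ 0)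
    (u : (𝓞 M)ˣ) (hu : (u : 𝓞 M) * galRestrict (𝓞 E) E M (𝓞 M) τ ε = ε) :
    ∃ J : (Ideal (𝓞 E))⁰,
      (J : Ideal (𝓞 E)).map (algebraMap (𝓞 E) (𝓞 M)) = Ideal.span {ε} := by
  have hτI : τ • (Ideal.span {ε} : Ideal (𝓞 M)) = Ideal.span {ε} := by
    rw [Fermat.Agent.S14Amb.smul_eq_map_galRestrict, Ideal.map_span, Set.image_singleton]
    rw [Ideal.span_singleton_eq_span_singleton]
    exact ⟨u, by rw [mul_comm]; exact hu⟩
  have h1 : τ ∈ MulAction.stabilizer (M ≃ₐ[E] M) (Ideal.span {ε} : Ideal (𝓞 M)) := by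
    rw [MulAction.mem_stabilizer_iff]
    exact hτI
  have h2 : Subgroup.zpowers τ ≤ MulAction.stabilizer (M ≃ₐ[E] M) (Ideal.span {ε} : Ideal (𝓞 M)) :=
    (Subgroup.zpowers_le).mpr h1
  have hall : ∀ σ : M ≃ₐ[E] M, σ • (Ideal.span {ε} : Ideal (𝓞 M)) = Ideal.span {ε} := by
    intro σ
    have h3 := h2 (gal_mem_zpowers hp hfin τ hτ σ)
    rw [MulAction.mem_stabilizer_iff] at h3
    exact h3
  obtain ⟨J, hJ⟩ := Fermat.Agent.S14Amb.exists_map_eq_of_smul_eq hunr _ hall
  have hJ0 : J ≠ ⊥ := by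
    intro h
    rw [h, Ideal.map_bot] at hJ
    exact hε (Ideal.span_singleton_eq_bot.mp hJ.symm)
  exact ⟨⟨J, mem_nonZeroDivisors_iff_ne_zero.mpr hJ0⟩, hJ⟩

/-- the comparison of two Hilbert 90 solutions whose ideals have the same class below -/
lemma ck_twist_of_mk0_eq (τ : M ≃ₐ[E] M) (u u' : (𝓞 M)ˣ) (ε ε' : 𝓞 M) (hε : ε ≠ 0)
    (hu : (u : 𝓞 M) * galRestrict (𝓞 E) E M (𝓞 M) τ ε = ε)
    (hu' : (u' : 𝓞 M) * galRestrict (𝓞 E) E M (𝓞 M) τ ε' = ε')
    (J J' : (Ideal (𝓞 E))⁰)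
    (hJ : (J : Ideal (𝓞 E)).map (algebraMap (𝓞 E) (𝓞 M)) = Ideal.span {ε})
    (hJ' : (J' : Ideal (𝓞 E)).map (algebraMap (𝓞 E) (𝓞 M)) = Ideal.span {ε'})
    (h : ClassGroup.mk0 J = ClassGroup.mk0 J') :
    u⁻¹ * u' ∈ (unitTwist τ).range := by
  obtain ⟨a, b, ha, hb, hab⟩ := ClassGroup.mk0_eq_mk0_iff.mp h
  -- extend to `M`
  have hab' := congrArg (Ideal.map (algebraMap (𝓞 E) (𝓞 M))) hab
  rw [Ideal.map_mul, Ideal.map_mul, hJ, hJ', Ideal.map_span, Ideal.map_span,
    Set.image_singleton, Set.image_singleton, Ideal.span_singleton_mul_span_singleton,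
    Ideal.span_singleton_mul_span_singleton, Ideal.span_singleton_eq_span_singleton] at hab'
  obtain ⟨w, hw⟩ := hab'
  set t := galRestrict (𝓞 E) E M (𝓞 M) τ with ht
  set a' := algebraMap (𝓞 E) (𝓞 M) a with ha'
  set b' := algebraMap (𝓞 E) (𝓞 M) b with hb'
  have hta : t a' = a' := by rw [ha']; exact t.commutes a
  have htb : t b' = b' := by rw [hb']; exact t.commutes b
  have ha0 : a' ≠ 0 := by
    rw [ha']
    exact (map_ne_zero_iff _ (FaithfulSMul.algebraMap_injective (𝓞 E) (𝓞 M))).mpr ha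
  have htε : t ε ≠ 0 := (map_ne_zero_iff _ t.injective).mpr hε
  -- apply `t` to `a' ε w = b' ε'`
  have h1 : a' * t ε * t (w : 𝓞 M) = b' * t ε' := by
    have := congrArg t hw
    rw [map_mul, map_mul, map_mul, hta, htb] at this
    exact this
  -- `u w = u' t w`
  have h2 : (u : 𝓞 M) * (w : 𝓞 M) = (u' : 𝓞 M) * t (w : 𝓞 M) := by
    have h3 : a' * t ε * ((u : 𝓞 M) * (w : 𝓞 M)) = a' * t ε * ((u' : 𝓞 M) * t (w : 𝓞 M)) := by
      calc a' * t ε * ((u : 𝓞 M) * (w : 𝓞 M)) = a' * ((u : 𝓞 M) * t ε) * (w : 𝓞 M) := by ring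
        _ = a' * ε * (w : 𝓞 M) := by rw [hu]
        _ = b' * ε' := hw
        _ = b' * ((u' : 𝓞 M) * t ε') := by rw [hu']
        _ = (u' : 𝓞 M) * (b' * t ε') := by ring
        _ = (u' : 𝓞 M) * (a' * t ε * t (w : 𝓞 M)) := by rw [h1]
        _ = a' * t ε * ((u' : 𝓞 M) * t (w : 𝓞 M)) := by ring
    exact mul_left_cancel₀ (mul_ne_zero ha0 htε) h3
  refine ⟨w⁻¹, ?_⟩
  rw [unitTwist_apply, map_inv, inv_div_inv]
  rw [div_eq_iff_eq_mul, eq_comm]
  apply Units.ext
  rw [Units.val_mul, Units.val_mul, coe_unitAct]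
  have h4 : ((u⁻¹ : (𝓞 M)ˣ) : 𝓞 M) * (u : 𝓞 M) = 1 := by
    rw [← Units.val_mul, inv_mul_cancel, Units.val_one]
  calc ((u⁻¹ : (𝓞 M)ˣ) : 𝓞 M) * (u' : 𝓞 M) * t (w : 𝓞 M)
      = ((u⁻¹ : (𝓞 M)ˣ) : 𝓞 M) * ((u' : 𝓞 M) * t (w : 𝓞 M)) := by ring
    _ = ((u⁻¹ : (𝓞 M)ˣ) : 𝓞 M) * ((u : 𝓞 M) * (w : 𝓞 M)) := by rw [h2]
    _ = (((u⁻¹ : (𝓞 M)ˣ) : 𝓞 M) * (u : 𝓞 M)) * (w : 𝓞 M) := by ring
    _ = (w : 𝓞 M) := by rw [h4, one_mul]


end capker

/-- **(C2) capitulation kernel.**  `[ker N_units : (τ - 1) units] ≤ |ker j|`. -/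
theorem capKer : CapKer := by
  intro p E M _ _ _ _ _ _ τ hp hfin hτ hunr
  classical
  -- data chosen for each unit of norm one
  have hdata : ∀ u : (unitNorm E M).ker, ∃ (ε : 𝓞 M) (J : (Ideal (𝓞 E))⁰), ε ≠ 0 ∧
      ((u : (𝓞 M)ˣ) : 𝓞 M) * galRestrict (𝓞 E) E M (𝓞 M) τ ε = ε ∧
      (J : Ideal (𝓞 E)).map (algebraMap (𝓞 E) (𝓞 M)) = Ideal.span {ε} := by
    intro u
    obtain ⟨ε, hε, hu⟩ := ck_hilbert90 hp hfin τ hτ u u.2
    obtain ⟨J, hJ⟩ := ck_exists_J hp hfin τ hτ hunr ε hε u hu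
    exact ⟨ε, J, hε, hu, hJ⟩
  choose ε J hε hu hJ using hdata
  have hker : ∀ u, ClassGroup.mk0 (J u) ∈ (clExt (𝓞 E) (𝓞 M)).ker := by
    intro u
    rw [MonoidHom.mem_ker, clExt_mk0, ClassGroup.mk0_eq_one_iff, coe_extNZ, hJ u]
    exact ⟨⟨ε u, rfl⟩⟩
  let f : (unitNorm E M).ker → (clExt (𝓞 E) (𝓞 M)).ker :=
    fun u => ⟨ClassGroup.mk0 (J u), hker u⟩
  have hf : ∀ u u', f u = f u' →
      ((u : (𝓞 M)ˣ))⁻¹ * (u' : (𝓞 M)ˣ) ∈ (unitTwist τ).range := by
    intro u u' h
    have h' : ClassGroup.mk0 (J u) = ClassGroup.mk0 (J u') := congrArg Subtype.val h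
    exact ck_twist_of_mk0_eq τ u u' (ε u) (ε u') (hε u) (hu u) (hu u') (J u) (J u')
      (hJ u) (hJ u') h'
  -- counting
  rw [Subgroup.relIndex, Subgroup.index]
  let F : ((unitNorm E M).ker ⧸ (unitTwist τ).range.subgroupOf (unitNorm E M).ker) →
      (clExt (𝓞 E) (𝓞 M)).ker := fun q => f q.out
  refine Nat.card_le_card_of_injective F ?_
  intro q q' h
  have h1 := hf _ _ h
  rw [← QuotientGroup.out_eq' q, ← QuotientGroup.out_eq' q', QuotientGroup.eq,
    Subgroup.mem_subgroupOf]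
  simpa using h1

end Fermat.Agent.S14FI
end MergeWrap_S14_FirstIneq_CapKer

section MergeWrap_S14_FirstIneq_InvClass -- from S14/FirstIneq/InvClass.lean

/-!
# S14 (H1), piece (C1): `InvClass` (helper13)
-/

set_option autoImplicit false

open NumberField
open scoped nonZeroDivisors Pointwise

namespace Fermat.Agent.S14FI

section ic

variable {E M : Type} [Field E] [NumberField E] [Field M] [NumberField M] [Algebra E M]
  [IsGalois E M]

/-- In a group of prime order every nontrivial element is a generator. -/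
theorem ic_mem_zpowers {p : ℕ} (hp : p.Prime) (hdeg : Module.finrank E M = p)
    {τ : M ≃ₐ[E] M} (hτ : τ ≠ 1) (σ : M ≃ₐ[E] M) : σ ∈ Subgroup.zpowers τ := by
  have hcard : Nat.card (M ≃ₐ[E] M) = p := by
    rw [IsGalois.card_aut_eq_finrank, hdeg]
  have : Fact p.Prime := ⟨hp⟩
  exact mem_zpowers_of_prime_card hcard hτ

/-- Hilbert 90 with cleared denominators: if `N y = N x` (`x, y ≠ 0` integers of `M`), there is
`a ≠ 0` in `𝓞 M` with `y * τ a = x * a`. -/
theorem ic_hilbert90 {p : ℕ} (hp : p.Prime) (hdeg : Module.finrank E M = p)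
    {τ : M ≃ₐ[E] M} (hτ : τ ≠ 1) {x y : 𝓞 M} (hx : x ≠ 0) (hy : y ≠ 0)
    (hN : RingOfIntegers.norm E y = RingOfIntegers.norm E x) :
    ∃ a : 𝓞 M, a ≠ 0 ∧ y * intAct τ a = x * a := by
  have hcard : Nat.card (M ≃ₐ[E] M) = p := by
    rw [IsGalois.card_aut_eq_finrank, hdeg]
  have : Fact p.Prime := ⟨hp⟩
  have hcyc : IsCyclic (M ≃ₐ[E] M) := isCyclic_of_prime_card hcard
  have hx' : (x : M) ≠ 0 := fun h => hx (RingOfIntegers.ext h)
  have hy' : (y : M) ≠ 0 := fun h => hy (RingOfIntegers.ext h)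
  have hNx : Algebra.norm E (x : M) ≠ 0 := by
    rw [Ne, Algebra.norm_eq_zero_iff]
    exact hx'
  have hη : Algebra.norm E ((y : M) / (x : M)) = 1 := by
    rw [div_eq_mul_inv, map_mul, Algebra.norm_inv, ← RingOfIntegers.coe_norm,
      ← RingOfIntegers.coe_norm, hN, RingOfIntegers.coe_norm]
    exact mul_inv_cancel₀ hNx
  obtain ⟨ε, hε⟩ := groupCohomology.exists_div_of_norm_eq_one (ic_mem_zpowers hp hdeg hτ) hη
  have hε0 : (ε : M) ≠ 0 := ε.ne_zero
  have hτε0 : τ (ε : M) ≠ 0 := (map_ne_zero_iff τ τ.injective).mpr hε0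
  obtain ⟨n, hn0, hn⟩ := exists_integral_multiples ℤ ℚ ({(ε : M)} : Finset M)
  have hn' : IsIntegral ℤ (n • (ε : M)) := hn _ (Finset.mem_singleton_self _)
  obtain ⟨a, ha⟩ : ∃ a : 𝓞 M, (a : M) = n • (ε : M) := ⟨⟨n • (ε : M), hn'⟩, rfl⟩
  refine ⟨a, ?_, ?_⟩
  · intro h
    rw [h] at ha
    have h1 : n • (ε : M) = 0 := ha.symm
    rw [smul_eq_zero] at h1
    rcases h1 with h1 | h1
    · exact hn0 h1
    · exact hε0 h1
  · apply RingOfIntegers.ext
    show (y : M) * ((intAct τ a : 𝓞 M) : M) = (x : M) * (a : M)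
    rw [coe_intAct, ha, map_zsmul]
    have h2 : (y : M) * τ (ε : M) = (x : M) * (ε : M) := by
      field_simp at hε
      rw [mul_comm (x : M), hε, mul_comm]
    rw [mul_smul_comm, mul_smul_comm, h2]

/-- The ideal `(a) I` is `τ`-invariant if `(x) τI = (y) I` and `y * τ a = x * a`. -/
theorem ic_map_eq {τ : M ≃ₐ[E] M} {I : Ideal (𝓞 M)} {x y a : 𝓞 M} (hx : x ≠ 0)
    (h : Ideal.span {x} * I.map (galRestrict (𝓞 E) E M (𝓞 M) τ) = Ideal.span {y} * I)
    (ha : y * intAct τ a = x * a) :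
    (Ideal.span {a} * I).map (galRestrict (𝓞 E) E M (𝓞 M) τ) = Ideal.span {a} * I := by
  have hx0 : (Ideal.span {x} : Ideal (𝓞 M)) ≠ 0 := by
    rw [Ne, Ideal.zero_eq_bot, Ideal.span_singleton_eq_bot]
    exact hx
  apply mul_left_cancel₀ hx0
  rw [Ideal.map_mul, Ideal.map_span, Set.image_singleton]
  have h1 : (galRestrict (𝓞 E) E M (𝓞 M) τ) a = intAct τ a := rfl
  rw [h1]
  calc Ideal.span {x} * (Ideal.span {intAct τ a} * I.map (galRestrict (𝓞 E) E M (𝓞 M) τ))
      = Ideal.span {intAct τ a} *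
          (Ideal.span {x} * I.map (galRestrict (𝓞 E) E M (𝓞 M) τ)) := by
        rw [← mul_assoc, mul_comm (Ideal.span {x}), mul_assoc]
    _ = Ideal.span {intAct τ a} * (Ideal.span {y} * I) := by rw [h]
    _ = Ideal.span {y * intAct τ a} * I := by
        rw [← mul_assoc, Ideal.span_singleton_mul_span_singleton, mul_comm (intAct τ a)]
    _ = Ideal.span {x * a} * I := by rw [ha]
    _ = Ideal.span {x} * (Ideal.span {a} * I) := by
        rw [← mul_assoc, Ideal.span_singleton_mul_span_singleton]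

end ic

/-- **(C1)** `InvClass`. -/
theorem invClass : InvClass := by
  intro p E M _ _ _ _ _ _ τ hp hdeg hτ hunr I x y hx hy h hN
  obtain ⟨a, ha0, ha⟩ := ic_hilbert90 hp hdeg hτ hx hy hN
  have h' : Ideal.span {x} * (I : Ideal (𝓞 M)).map (galRestrict (𝓞 E) E M (𝓞 M) τ) =
      Ideal.span {y} * (I : Ideal (𝓞 M)) := congrArg Subtype.val h
  have hinv := ic_map_eq hx h' ha
  -- invariance under the whole Galois group
  have hτmem : τ ∈ MulAction.stabilizer (M ≃ₐ[E] M) (Ideal.span {a} * (I : Ideal (𝓞 M))) := by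
    rw [MulAction.mem_stabilizer_iff, S14Amb.smul_eq_map_galRestrict]
    exact hinv
  have hall : ∀ σ : M ≃ₐ[E] M, σ • (Ideal.span {a} * (I : Ideal (𝓞 M))) =
      Ideal.span {a} * (I : Ideal (𝓞 M)) := by
    intro σ
    have h1 : Subgroup.zpowers τ ≤
        MulAction.stabilizer (M ≃ₐ[E] M) (Ideal.span {a} * (I : Ideal (𝓞 M))) :=
      Subgroup.zpowers_le.mpr hτmem
    exact MulAction.mem_stabilizer_iff.mp (h1 (ic_mem_zpowers hp hdeg hτ σ))
  obtain ⟨J, hJ⟩ := S14Amb.exists_map_eq_of_smul_eq hunr _ hall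
  have haI0 : Ideal.span {a} * (I : Ideal (𝓞 M)) ≠ ⊥ := by
    have := (spanNZ a ha0 * I).2
    exact mem_nonZeroDivisors_iff_ne_zero.mp this
  have hJ0 : J ≠ ⊥ := by
    rintro rfl
    rw [Ideal.map_bot] at hJ
    exact haI0 hJ.symm
  refine ⟨ClassGroup.mk0 ⟨J, mem_nonZeroDivisors_iff_ne_zero.mpr hJ0⟩, ?_⟩
  rw [clExt_mk0]
  have h2 : (extNZ ⟨J, mem_nonZeroDivisors_iff_ne_zero.mpr hJ0⟩ : (Ideal (𝓞 M))⁰) =
      spanNZ a ha0 * I := Subtype.ext hJ
  rw [h2, map_mul, mk0_spanNZ, one_mul]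

end Fermat.Agent.S14FI
end MergeWrap_S14_FirstIneq_InvClass

section MergeWrap_Lib_Herbrand_Index -- from Lib/Herbrand/Index.lean

/-!
# Index calculus for additive subgroups (Lang's index lemma)

All statements use `AddSubgroup.relIndex` (`B.relIndex C = [C : B ⊓ C]`, `0` if infinite) and
hold without any finiteness hypothesis.
-/

set_option autoImplicit false

namespace Fermat.Agent.Herbrand

variable {A A' : Type*} [AddCommGroup A] [AddCommGroup A']

/-- For `B ≤ C` and any subgroup `K`: `[C : B] = [C + K : B + K] * [C ∩ K : B ∩ K]`. -/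
theorem relIndex_eq_sup_mul_inf (B C K : AddSubgroup A) (h : B ≤ C) :
    B.relIndex C = (B ⊔ K).relIndex (C ⊔ K) * (B ⊓ K).relIndex (C ⊓ K) := by
  have h1 : B ≤ B ⊔ (C ⊓ K) := le_sup_left
  have h2 : B ⊔ (C ⊓ K) ≤ C := sup_le h inf_le_left
  rw [← AddSubgroup.relIndex_mul_relIndex B (B ⊔ (C ⊓ K)) C h1 h2]
  have e1 : B.relIndex (B ⊔ (C ⊓ K)) = (B ⊓ K).relIndex (C ⊓ K) := by
    rw [AddSubgroup.relIndex_sup_left, ← AddSubgroup.inf_relIndex_right B (C ⊓ K)]
    congr 1
    rw [← inf_assoc, inf_eq_left.mpr h]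
  have e2 : (B ⊔ (C ⊓ K)).relIndex C = (B ⊔ K).relIndex (C ⊔ K) := by
    have hm : B ⊔ (C ⊓ K) = (B ⊔ K) ⊓ C := by
      rw [sup_inf_assoc_of_le K h, inf_comm K C]
    rw [hm, AddSubgroup.inf_relIndex_right]
    have hs : C ⊔ K = C ⊔ (B ⊔ K) := by
      rw [← sup_assoc, sup_eq_left.mpr h]
    rw [hs, AddSubgroup.relIndex_sup_right]
  rw [e1, e2, mul_comm]

/-- **Lang's index lemma**: for `B ≤ C` and a homomorphism `f`,
`[C : B] = [f C : f B] * [C ∩ ker f : B ∩ ker f]`. -/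
theorem relIndex_eq_map_mul_ker (f : A →+ A') (B C : AddSubgroup A) (h : B ≤ C) :
    B.relIndex C = (B.map f).relIndex (C.map f) * (B ⊓ f.ker).relIndex (C ⊓ f.ker) := by
  rw [AddSubgroup.relIndex_map_map]
  exact relIndex_eq_sup_mul_inf B C f.ker h

/-- If `f` is injective on `C` (i.e. `C ⊓ ker f = ⊥`), then `[f C : f B] = [C : B]` for `B ≤ C`. -/
theorem relIndex_map_map_of_inf_ker_eq_bot (f : A →+ A') (B C : AddSubgroup A) (h : B ≤ C)
    (hC : C ⊓ f.ker = ⊥) :
    (B.map f).relIndex (C.map f) = B.relIndex C := by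
  rw [relIndex_eq_map_mul_ker f B C h, hC, AddSubgroup.relIndex_bot_right, mul_one]

end Fermat.Agent.Herbrand
end MergeWrap_Lib_Herbrand_Index

section MergeWrap_Lib_Herbrand_Basic -- from Lib/Herbrand/Basic.lean

/-!
# Herbrand quotients in index form

For two endomorphisms `f g` of an additive commutative group `A` with `f ∘ g = 0 = g ∘ f` and a
subgroup `B` stable under both, put `hq f g B = [B ∩ ker f : g B]`.  The Herbrand quotient of `B`
is `hq f g B / hq g f B`.  We prove that it is the same for two stable subgroups `B ≤ C` with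
`[C : B]` finite ("Herbrand's lemma"), in the multiplicative form
`hq f g C * hq g f B = hq f g B * hq g f C`, and that it is `1` for finite groups.
-/

set_option autoImplicit false

namespace Fermat.Agent.Herbrand

variable {A : Type*} [AddCommGroup A]

/-- `hq f g B = [B ∩ ker f : g B]` (`0` if infinite). -/
noncomputable def hq (f g : A →+ A) (B : AddSubgroup A) : ℕ :=
  (B.map g).relIndex (B ⊓ f.ker)

theorem hq_def (f g : A →+ A) (B : AddSubgroup A) :
    hq f g B = (B.map g).relIndex (B ⊓ f.ker) := rfl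

theorem hq_top (f g : A →+ A) : hq f g ⊤ = g.range.relIndex f.ker := by
  rw [hq, top_inf_eq, ← AddMonoidHom.range_eq_map]

theorem hq_bot (f g : A →+ A) : hq f g ⊥ = 1 := by
  rw [hq, bot_inf_eq, AddSubgroup.relIndex_bot_right]

theorem map_le_inf_ker (f g : A →+ A) (hfg : ∀ x, f (g x) = 0) {B : AddSubgroup A}
    (hgB : B.map g ≤ B) : B.map g ≤ B ⊓ f.ker := by
  refine le_inf hgB ?_
  rintro _ ⟨x, -, rfl⟩
  exact hfg x

/-- `[g C : g B] * hq f g C = hq f g B * [C ∩ ker f : B ∩ ker f]`. -/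
theorem relIndex_map_mul_hq (f g : A →+ A) (hfg : ∀ x, f (g x) = 0) {B C : AddSubgroup A}
    (hBC : B ≤ C) (hgB : B.map g ≤ B) (hgC : C.map g ≤ C) :
    (B.map g).relIndex (C.map g) * hq f g C =
      hq f g B * (B ⊓ f.ker).relIndex (C ⊓ f.ker) := by
  have h1 : B.map g ≤ C.map g := AddSubgroup.map_mono hBC
  have h2 : C.map g ≤ C ⊓ f.ker := map_le_inf_ker f g hfg hgC
  have h3 : B.map g ≤ B ⊓ f.ker := map_le_inf_ker f g hfg hgB
  have h4 : B ⊓ f.ker ≤ C ⊓ f.ker := inf_le_inf_right _ hBC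
  rw [hq, hq, AddSubgroup.relIndex_mul_relIndex _ _ _ h1 h2,
    AddSubgroup.relIndex_mul_relIndex _ _ _ h3 h4]

/-- **Herbrand's lemma** (index form): if `B ≤ C` are stable under `f` and `g`, `f ∘ g = 0 = g ∘ f`
and `[C : B]` is finite, then `hq f g C * hq g f B = hq f g B * hq g f C`. -/
theorem hq_mul_hq_of_relIndex_ne_zero (f g : A →+ A) (hfg : ∀ x, f (g x) = 0)
    (hgf : ∀ x, g (f x) = 0) {B C : AddSubgroup A} (hBC : B ≤ C)
    (hfB : B.map f ≤ B) (hgB : B.map g ≤ B) (hfC : C.map f ≤ C) (hgC : C.map g ≤ C)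
    (hfin : B.relIndex C ≠ 0) :
    hq f g C * hq g f B = hq f g B * hq g f C := by
  have e1 := relIndex_map_mul_hq f g hfg hBC hgB hgC
  have e2 := relIndex_map_mul_hq g f hgf hBC hfB hfC
  have i1 := relIndex_eq_map_mul_ker f B C hBC
  have i2 := relIndex_eq_map_mul_ker g B C hBC
  have key : B.relIndex C * (hq f g C * hq g f B) = B.relIndex C * (hq f g B * hq g f C) := by
    calc B.relIndex C * (hq f g C * hq g f B)
        = ((B.map g).relIndex (C.map g) * hq f g C) *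
            (hq g f B * (B ⊓ g.ker).relIndex (C ⊓ g.ker)) := by rw [i2]; ring
      _ = (hq f g B * (B ⊓ f.ker).relIndex (C ⊓ f.ker)) *
            ((B.map f).relIndex (C.map f) * hq g f C) := by rw [e1, e2]
      _ = B.relIndex C * (hq f g B * hq g f C) := by rw [i1]; ring
  exact Nat.eq_of_mul_eq_mul_left (Nat.pos_of_ne_zero hfin) key

/-- Under the hypotheses of Herbrand's lemma, `hq f g C` is finite iff `hq f g B` is. -/
theorem hq_ne_zero_iff_of_relIndex_ne_zero (f g : A →+ A) (hfg : ∀ x, f (g x) = 0)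
    {B C : AddSubgroup A} (hBC : B ≤ C) (hgB : B.map g ≤ B) (hgC : C.map g ≤ C)
    (hfin : B.relIndex C ≠ 0) :
    hq f g C ≠ 0 ↔ hq f g B ≠ 0 := by
  have e1 := relIndex_map_mul_hq f g hfg hBC hgB hgC
  have i1 := relIndex_eq_map_mul_ker f B C hBC
  have i2 := relIndex_eq_map_mul_ker g B C hBC
  have n1 : (B ⊓ f.ker).relIndex (C ⊓ f.ker) ≠ 0 := by
    intro h; rw [h, mul_zero] at i1; exact hfin i1
  have n2 : (B.map g).relIndex (C.map g) ≠ 0 := by
    intro h; rw [h, zero_mul] at i2; exact hfin i2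
  constructor
  · intro h hB
    rw [hB, zero_mul] at e1
    exact (mul_ne_zero n2 h) e1
  · intro h hC
    rw [hC, mul_zero] at e1
    exact (mul_ne_zero h n1) e1.symm

/-- The Herbrand quotient of a finite stable subgroup is `1`. -/
theorem hq_eq_hq_of_finite (f g : A →+ A) (hfg : ∀ x, f (g x) = 0)
    (hgf : ∀ x, g (f x) = 0) {C : AddSubgroup A} (hfC : C.map f ≤ C) (hgC : C.map g ≤ C)
    [Finite C] : hq f g C = hq g f C := by
  have hfin : (⊥ : AddSubgroup A).relIndex C ≠ 0 := by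
    rw [AddSubgroup.relIndex_bot_left]
    exact Nat.card_pos.ne'
  have := hq_mul_hq_of_relIndex_ne_zero f g hfg hgf (bot_le : (⊥ : AddSubgroup A) ≤ C)
    (by simp) (by simp) hfC hgC hfin
  simpa [hq_bot] using this

theorem hq_ne_zero_of_finite (f g : A →+ A) (hfg : ∀ x, f (g x) = 0)
    {C : AddSubgroup A} (hgC : C.map g ≤ C) [Finite C] : hq f g C ≠ 0 := by
  have hfin : (⊥ : AddSubgroup A).relIndex C ≠ 0 := by
    rw [AddSubgroup.relIndex_bot_left]
    exact Nat.card_pos.ne'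
  rw [hq_ne_zero_iff_of_relIndex_ne_zero f g hfg (bot_le : (⊥ : AddSubgroup A) ≤ C)
    (by simp) hgC hfin, hq_bot]
  exact one_ne_zero

end Fermat.Agent.Herbrand
end MergeWrap_Lib_Herbrand_Basic

section MergeWrap_Lib_Herbrand_Lattice -- from Lib/Herbrand/Lattice.lean

/-!
# Index computations in free `ℤ`-modules of finite rank

* the index of the image of an injective endomorphism is the absolute value of its determinant;
* `[K : nK] = n ^ rank K`;
* if `1 + σ + ... + σ^(p-1) = 0` on `M` then `|det (σ - 1)| = p ^ b` with `(p - 1) * b = rank M`.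
-/

set_option autoImplicit false

open Finset Module

namespace Fermat.Agent.Herbrand

section Free

variable {M : Type*} [AddCommGroup M] [Module.Free ℤ M] [Module.Finite ℤ M]

theorem index_range_eq_natAbs_det (φ : M →ₗ[ℤ] M) (hφ : Function.Injective φ) :
    (LinearMap.range φ).toAddSubgroup.index = (LinearMap.det φ).natAbs := by
  have h := Submodule.natAbs_det_equiv (LinearMap.range φ) (LinearEquiv.ofInjective φ hφ)
  have hcomp : (LinearMap.range φ).subtype ∘ₗ
      AddMonoidHom.toIntLinearMap ((LinearEquiv.ofInjective φ hφ : M ≃ₗ[ℤ] LinearMap.range φ) :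
        M →+ LinearMap.range φ) = φ := by
    ext x
    rfl
  rw [hcomp] at h
  rw [h]
  rfl

theorem natAbs_det_sub_one_pow (p : ℕ) [hp : Fact p.Prime] (σ : Module.End ℤ M)
    (hσ : ∑ i ∈ range p, σ ^ i = 0) :
    (LinearMap.det (σ - 1)).natAbs ^ (p - 1) = p ^ finrank ℤ M := by
  obtain ⟨G, hG⟩ := exists_sub_one_pow_eq_prime_mul p σ hσ
  obtain ⟨H, hH⟩ := exists_prime_eq_mul_sub_one_pow p σ hσ
  have hdetp : LinearMap.det ((p : Module.End ℤ M)) = (p : ℤ) ^ finrank ℤ M := by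
    have : (p : Module.End ℤ M) = (p : ℤ) • (1 : Module.End ℤ M) := by
      simp
    rw [this, LinearMap.det_smul, map_one, mul_one]
  have e1 : LinearMap.det (σ - 1) ^ (p - 1) = (p : ℤ) ^ finrank ℤ M * LinearMap.det G := by
    rw [← map_pow, hG, map_mul, hdetp]
  have e2 : (p : ℤ) ^ finrank ℤ M = LinearMap.det H * LinearMap.det (σ - 1) ^ (p - 1) := by
    rw [← hdetp, hH, map_mul, map_pow]
  have d1 : (p ^ finrank ℤ M : ℕ) ∣ (LinearMap.det (σ - 1)).natAbs ^ (p - 1) := by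
    rw [← Int.natAbs_pow, ← Int.natCast_dvd]
    push_cast
    exact ⟨_, e1⟩
  have d2 : (LinearMap.det (σ - 1)).natAbs ^ (p - 1) ∣ (p ^ finrank ℤ M : ℕ) := by
    rw [← Int.natAbs_pow, ← Int.dvd_natCast]
    push_cast
    exact ⟨_, by rw [e2]; ring⟩
  exact Nat.dvd_antisymm d2 d1

theorem exists_natAbs_det_sub_one_eq (p : ℕ) [hp : Fact p.Prime] (σ : Module.End ℤ M)
    (hσ : ∑ i ∈ range p, σ ^ i = 0) :
    ∃ b : ℕ, (p - 1) * b = finrank ℤ M ∧ (LinearMap.det (σ - 1)).natAbs = p ^ b := by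
  have h := natAbs_det_sub_one_pow p σ hσ
  have hp1 : p - 1 ≠ 0 := Nat.sub_ne_zero_of_lt hp.out.one_lt
  have hdvd : (LinearMap.det (σ - 1)).natAbs ∣ p ^ finrank ℤ M := by
    rw [← h]
    exact dvd_pow_self _ hp1
  obtain ⟨b, -, hb⟩ := (Nat.dvd_prime_pow hp.out).mp hdvd
  refine ⟨b, ?_, hb⟩
  rw [hb, ← pow_mul] at h
  have := Nat.pow_right_injective hp.out.two_le h
  rw [mul_comm]; exact this

end Free

section Sub

variable {A : Type*} [AddCommGroup A]

theorem relIndex_map_eq_natAbs_det (K : Submodule ℤ A) [Module.Free ℤ K] [Module.Finite ℤ K]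
    (g : A →ₗ[ℤ] A) (hg : ∀ x ∈ K, g x ∈ K) (hinj : ∀ x ∈ K, g x = 0 → x = 0) :
    (K.map g).toAddSubgroup.relIndex K.toAddSubgroup =
      (LinearMap.det (g.restrict hg)).natAbs := by
  have hφ : Function.Injective (g.restrict hg) := by
    rw [← LinearMap.ker_eq_bot, LinearMap.ker_eq_bot']
    intro x hx
    have : g x = 0 := by
      have := congrArg Subtype.val hx
      simpa using this
    exact Subtype.ext (hinj x x.2 this)
  rw [← index_range_eq_natAbs_det (g.restrict hg) hφ, AddSubgroup.relIndex]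
  congr 1
  ext x
  simp only [AddSubgroup.mem_addSubgroupOf, Submodule.mem_toAddSubgroup, Submodule.mem_map,
    LinearMap.mem_range]
  constructor
  · rintro ⟨y, hy, hxy⟩
    exact ⟨⟨y, hy⟩, Subtype.ext hxy⟩
  · rintro ⟨y, hy⟩
    exact ⟨y, y.2, by rw [← hy]; rfl⟩

theorem relIndex_smul_eq_pow (K : Submodule ℤ A) [Module.Free ℤ K] [Module.Finite ℤ K]
    (n : ℕ) (hn : n ≠ 0) :
    (K.map ((n : ℤ) • (LinearMap.id : A →ₗ[ℤ] A))).toAddSubgroup.relIndex K.toAddSubgroup =
      n ^ finrank ℤ K := by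
  have hg : ∀ x ∈ K, ((n : ℤ) • (LinearMap.id : A →ₗ[ℤ] A)) x ∈ K := by
    intro x hx
    simpa using K.smul_mem (n : ℤ) hx
  have hinj : ∀ x ∈ K, ((n : ℤ) • (LinearMap.id : A →ₗ[ℤ] A)) x = 0 → x = 0 := by
    intro x hx h
    have h' : (n : ℤ) • (⟨x, hx⟩ : K) = 0 := Subtype.ext (by simpa using h)
    have hn' : (n : ℤ) ≠ 0 := by exact_mod_cast hn
    have := (smul_eq_zero.mp h').resolve_left hn'
    exact congrArg Subtype.val this
  rw [relIndex_map_eq_natAbs_det K _ hg hinj]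
  have : ((n : ℤ) • (LinearMap.id : A →ₗ[ℤ] A)).restrict hg = (n : ℤ) • (1 : Module.End ℤ K) := by
    ext x
    simp
  rw [this, LinearMap.det_smul, map_one, mul_one, Int.natAbs_pow, Int.natAbs_natCast]

end Sub

end Fermat.Agent.Herbrand
end MergeWrap_Lib_Herbrand_Lattice

section MergeWrap_Lib_Herbrand_PrimeCyclicFree -- from Lib/Herbrand/PrimeCyclicFree.lean

/-!
# Herbrand quotient of a lattice with an automorphism of prime order

`σ` is an endomorphism of an additive commutative group `A` with `σ ^ p = 1` (`p` prime),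
`N = 1 + σ + ... + σ^(p-1)` the norm and `D = σ - 1`.  For a `σ`-stable subgroup `C` of `A` which
is free of finite rank over `ℤ` we prove

  `[C ∩ ker D : N C] * p ^ b = p ^ a * [C ∩ ker N : D C]`,

where `a = rank (C ∩ ker D)` and `a + (p - 1) * b = rank C`, and that both indices are finite.
-/

set_option autoImplicit false

open Module Finset

namespace Fermat.Agent.Herbrand

variable {A : Type*} [AddCommGroup A]

/-- The norm element `1 + σ + ... + σ^(p-1)`. -/
def normEnd (p : ℕ) (σ : Module.End ℤ A) : Module.End ℤ A := ∑ i ∈ range p, σ ^ i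

theorem normEnd_def (p : ℕ) (σ : Module.End ℤ A) : normEnd p σ = ∑ i ∈ range p, σ ^ i := rfl

theorem sub_one_mul_normEnd {p : ℕ} {σ : Module.End ℤ A} (hσ : σ ^ p = 1) :
    (σ - 1) * normEnd p σ = 0 := by
  rw [normEnd, mul_geom_sum, hσ, sub_self]

theorem normEnd_mul_sub_one {p : ℕ} {σ : Module.End ℤ A} (hσ : σ ^ p = 1) :
    normEnd p σ * (σ - 1) = 0 := by
  rw [normEnd, geom_sum_mul, hσ, sub_self]

theorem sub_one_normEnd_apply {p : ℕ} {σ : Module.End ℤ A} (hσ : σ ^ p = 1) (x : A) :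
    (σ - 1) (normEnd p σ x) = 0 := by
  have := congrArg (fun f : Module.End ℤ A => f x) (sub_one_mul_normEnd hσ)
  simpa using this

theorem normEnd_sub_one_apply {p : ℕ} {σ : Module.End ℤ A} (hσ : σ ^ p = 1) (x : A) :
    normEnd p σ ((σ - 1) x) = 0 := by
  have := congrArg (fun f : Module.End ℤ A => f x) (normEnd_mul_sub_one hσ)
  simpa using this

theorem pow_apply_of_fixed {σ : Module.End ℤ A} {x : A} (hx : σ x = x) (i : ℕ) :
    (σ ^ i) x = x := by
  induction i with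
  | zero => simp
  | succ n ih => rw [pow_succ, Module.End.mul_apply, hx, ih]

theorem normEnd_apply_of_fixed (p : ℕ) {σ : Module.End ℤ A} {x : A} (hx : σ x = x) :
    normEnd p σ x = p • x := by
  rw [normEnd, LinearMap.sum_apply]
  simp [pow_apply_of_fixed hx]

theorem mem_ker_sub_one {σ : Module.End ℤ A} {x : A} :
    x ∈ LinearMap.ker (σ - 1) ↔ σ x = x := by
  rw [LinearMap.mem_ker, LinearMap.sub_apply, Module.End.one_apply, sub_eq_zero]

theorem normEnd_apply_of_mem_ker (p : ℕ) {σ : Module.End ℤ A} {x : A}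
    (hx : x ∈ LinearMap.ker (σ - 1)) : normEnd p σ x = p • x :=
  normEnd_apply_of_fixed p (mem_ker_sub_one.mp hx)

theorem normEnd_normEnd_apply {p : ℕ} {σ : Module.End ℤ A} (hσ : σ ^ p = 1) (x : A) :
    normEnd p σ (normEnd p σ x) = p • normEnd p σ x :=
  normEnd_apply_of_mem_ker p (LinearMap.mem_ker.mpr (sub_one_normEnd_apply hσ x))

/-- `σ` maps `ker N` to itself. -/
theorem apply_mem_ker_normEnd {p : ℕ} {σ : Module.End ℤ A} (hσ : σ ^ p = 1) {x : A}
    (hx : x ∈ LinearMap.ker (normEnd p σ)) : σ x ∈ LinearMap.ker (normEnd p σ) := by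
  rw [LinearMap.mem_ker] at hx ⊢
  have h := normEnd_sub_one_apply hσ x
  rw [LinearMap.sub_apply, Module.End.one_apply, map_sub, hx, sub_zero] at h
  exact h


/-- Submodule form of `hq`: `hqL f g B = [B ∩ ker f : g B]`. -/
noncomputable def hqL (f g : Module.End ℤ A) (B : Submodule ℤ A) : ℕ :=
  (B.map g).toAddSubgroup.relIndex (B ⊓ LinearMap.ker f).toAddSubgroup

theorem hqL_eq_hq (f g : Module.End ℤ A) (B : Submodule ℤ A) :
    hqL f g B = hq f.toAddMonoidHom g.toAddMonoidHom B.toAddSubgroup := by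
  rfl

theorem hqL_mul_hqL_of_relIndex_ne_zero (f g : Module.End ℤ A) (hfg : f * g = 0)
    (hgf : g * f = 0) {B C : Submodule ℤ A} (hBC : B ≤ C)
    (hfB : ∀ x ∈ B, f x ∈ B) (hgB : ∀ x ∈ B, g x ∈ B) (hfC : ∀ x ∈ C, f x ∈ C)
    (hgC : ∀ x ∈ C, g x ∈ C)
    (hfin : B.toAddSubgroup.relIndex C.toAddSubgroup ≠ 0) :
    hqL f g C * hqL g f B = hqL f g B * hqL g f C := by
  simp only [hqL_eq_hq]
  refine hq_mul_hq_of_relIndex_ne_zero _ _ ?_ ?_ hBC ?_ ?_ ?_ ?_ hfin
  · intro x
    exact congrArg (fun h : Module.End ℤ A => h x) hfg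
  · intro x
    exact congrArg (fun h : Module.End ℤ A => h x) hgf
  · rintro _ ⟨x, hx, rfl⟩; exact hfB x hx
  · rintro _ ⟨x, hx, rfl⟩; exact hgB x hx
  · rintro _ ⟨x, hx, rfl⟩; exact hfC x hx
  · rintro _ ⟨x, hx, rfl⟩; exact hgC x hx

theorem hqL_ne_zero_iff_of_relIndex_ne_zero (f g : Module.End ℤ A) (hfg : f * g = 0)
    {B C : Submodule ℤ A} (hBC : B ≤ C)
    (hgB : ∀ x ∈ B, g x ∈ B) (hgC : ∀ x ∈ C, g x ∈ C)
    (hfin : B.toAddSubgroup.relIndex C.toAddSubgroup ≠ 0) :
    hqL f g C ≠ 0 ↔ hqL f g B ≠ 0 := by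
  simp only [hqL_eq_hq]
  refine hq_ne_zero_iff_of_relIndex_ne_zero _ _ ?_ hBC ?_ ?_ hfin
  · intro x
    exact congrArg (fun h : Module.End ℤ A => h x) hfg
  · rintro _ ⟨x, hx, rfl⟩; exact hgB x hx
  · rintro _ ⟨x, hx, rfl⟩; exact hgC x hx


section Relative

variable {p : ℕ} {σ : Module.End ℤ A} (C : Submodule ℤ A)

theorem pow_apply_mem_of_stable (hC : ∀ x ∈ C, σ x ∈ C) (i : ℕ) {x : A} (hx : x ∈ C) :
    (σ ^ i) x ∈ C :=
  Module.End.pow_apply_mem_of_forall_mem i hC x hx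

theorem normEnd_apply_mem_of_stable (hC : ∀ x ∈ C, σ x ∈ C) {x : A} (hx : x ∈ C) :
    normEnd p σ x ∈ C := by
  rw [normEnd, LinearMap.sum_apply]
  exact C.sum_mem fun i _ => pow_apply_mem_of_stable C hC i hx

theorem sub_one_apply_mem_of_stable (hC : ∀ x ∈ C, σ x ∈ C) {x : A} (hx : x ∈ C) :
    (σ - 1) x ∈ C := by
  rw [LinearMap.sub_apply, Module.End.one_apply]
  exact C.sub_mem (hC x hx) hx

/-- `p C ≤ (C ∩ ker D) + (C ∩ ker N)`. -/
theorem smul_mem_sup (hσ : σ ^ p = 1) (hC : ∀ x ∈ C, σ x ∈ C) {x : A} (hx : x ∈ C) :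
    p • x ∈ (C ⊓ LinearMap.ker (σ - 1)) ⊔ (C ⊓ LinearMap.ker (normEnd p σ)) := by
  rw [Submodule.mem_sup]
  refine ⟨normEnd p σ x, ⟨normEnd_apply_mem_of_stable C hC hx,
    LinearMap.mem_ker.mpr (sub_one_normEnd_apply hσ x)⟩, p • x - normEnd p σ x,
    ⟨C.sub_mem (C.smul_of_tower_mem p hx) (normEnd_apply_mem_of_stable C hC hx), ?_⟩, by abel⟩
  show p • x - normEnd p σ x ∈ LinearMap.ker (normEnd p σ)
  rw [LinearMap.mem_ker, map_sub, map_nsmul, normEnd_normEnd_apply hσ, sub_self]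

theorem sup_le_self :
    (C ⊓ LinearMap.ker (σ - 1)) ⊔ (C ⊓ LinearMap.ker (normEnd p σ)) ≤ C :=
  sup_le inf_le_left inf_le_left

theorem sup_inf_ker_sub_one :
    ((C ⊓ LinearMap.ker (σ - 1)) ⊔ (C ⊓ LinearMap.ker (normEnd p σ))) ⊓ LinearMap.ker (σ - 1) =
      C ⊓ LinearMap.ker (σ - 1) :=
  le_antisymm (inf_le_inf_right _ (sup_le_self C)) (le_inf le_sup_left inf_le_right)

theorem sup_inf_ker_normEnd :
    ((C ⊓ LinearMap.ker (σ - 1)) ⊔ (C ⊓ LinearMap.ker (normEnd p σ))) ⊓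
        LinearMap.ker (normEnd p σ) = C ⊓ LinearMap.ker (normEnd p σ) :=
  le_antisymm (inf_le_inf_right _ (sup_le_self C)) (le_inf le_sup_right inf_le_right)

theorem map_normEnd_sup :
    ((C ⊓ LinearMap.ker (σ - 1)) ⊔ (C ⊓ LinearMap.ker (normEnd p σ))).map (normEnd p σ) =
      (C ⊓ LinearMap.ker (σ - 1)).map ((p : ℤ) • (LinearMap.id : A →ₗ[ℤ] A)) := by
  rw [Submodule.map_sup]
  have h2 : (C ⊓ LinearMap.ker (normEnd p σ)).map (normEnd p σ) = ⊥ := by
    rw [eq_bot_iff]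
    rintro _ ⟨x, hx, rfl⟩
    exact LinearMap.mem_ker.mp hx.2
  rw [h2, sup_bot_eq]
  ext y
  simp only [Submodule.mem_map]
  constructor
  · rintro ⟨x, hx, rfl⟩
    exact ⟨x, hx, by rw [normEnd_apply_of_mem_ker p hx.2]; simp⟩
  · rintro ⟨x, hx, rfl⟩
    exact ⟨x, hx, by rw [normEnd_apply_of_mem_ker p hx.2]; simp⟩

theorem map_sub_one_sup :
    ((C ⊓ LinearMap.ker (σ - 1)) ⊔ (C ⊓ LinearMap.ker (normEnd p σ))).map (σ - 1) =
      (C ⊓ LinearMap.ker (normEnd p σ)).map (σ - 1) := by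
  rw [Submodule.map_sup]
  have h2 : (C ⊓ LinearMap.ker (σ - 1)).map (σ - 1) = ⊥ := by
    rw [eq_bot_iff]
    rintro _ ⟨x, hx, rfl⟩
    exact LinearMap.mem_ker.mp hx.2
  rw [h2, bot_sup_eq]

variable [Module.Free ℤ C] [Module.Finite ℤ C]

theorem relIndex_sup_ne_zero [hp : Fact p.Prime] (hσ : σ ^ p = 1) (hC : ∀ x ∈ C, σ x ∈ C) :
    ((C ⊓ LinearMap.ker (σ - 1)) ⊔ (C ⊓ LinearMap.ker (normEnd p σ))).toAddSubgroup.relIndex
      C.toAddSubgroup ≠ 0 := by
  have h1 := relIndex_smul_eq_pow C p hp.out.ne_zero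
  have hle : (C.map ((p : ℤ) • (LinearMap.id : A →ₗ[ℤ] A))).toAddSubgroup ≤
      ((C ⊓ LinearMap.ker (σ - 1)) ⊔ (C ⊓ LinearMap.ker (normEnd p σ))).toAddSubgroup := by
    rintro _ ⟨x, hx, rfl⟩
    have := smul_mem_sup C hσ hC hx
    simpa using this
  have hdvd := AddSubgroup.relIndex_dvd_of_le_left C.toAddSubgroup hle
  intro h0
  rw [h0, h1, zero_dvd_iff] at hdvd
  exact (pow_ne_zero _ hp.out.ne_zero) hdvd

end Relative

section Ranks

theorem free_of_le {K C : Submodule ℤ A} [Module.Free ℤ C] [Module.Finite ℤ C] (h : K ≤ C) :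
    Module.Free ℤ K :=
  Module.Free.of_equiv (Submodule.comapSubtypeEquivOfLe h)

theorem finite_of_le {K C : Submodule ℤ A} [Module.Finite ℤ C] (h : K ≤ C) :
    Module.Finite ℤ K :=
  Module.Finite.equiv (Submodule.comapSubtypeEquivOfLe h)

/-- Rank-nullity for the restriction of `g` to `C`. -/
theorem finrank_map_add_finrank_inf_ker (C : Submodule ℤ A) [Module.Finite ℤ C]
    (g : Module.End ℤ A) :
    finrank ℤ (C.map g) + finrank ℤ (C ⊓ LinearMap.ker g : Submodule ℤ A) = finrank ℤ C := by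
  have h1 := Submodule.finrank_quotient_add_finrank (LinearMap.ker (g.domRestrict C))
  have h2 : finrank ℤ (C ⧸ LinearMap.ker (g.domRestrict C)) = finrank ℤ (C.map g) := by
    rw [← LinearMap.range_domRestrict]
    exact (g.domRestrict C).quotKerEquivRange.finrank_eq
  have h3 : finrank ℤ (LinearMap.ker (g.domRestrict C)) =
      finrank ℤ (C ⊓ LinearMap.ker g : Submodule ℤ A) := by
    rw [LinearMap.ker_domRestrict, ← Submodule.map_comap_subtype,
      Submodule.finrank_map_subtype_eq]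
  rw [h2, h3] at h1
  exact h1

/-- If `g` is injective on `K` then `g K` has the same rank as `K`. -/
theorem finrank_map_of_injOn (K : Submodule ℤ A) (g : Module.End ℤ A)
    (hg : ∀ x ∈ K, g x = 0 → x = 0) : finrank ℤ (K.map g) = finrank ℤ K := by
  rw [← LinearMap.range_domRestrict]
  refine LinearMap.finrank_range_of_inj ?_
  rw [← LinearMap.ker_eq_bot, LinearMap.ker_eq_bot']
  intro x hx
  exact Subtype.ext (hg x x.2 hx)

end Ranks

section Main

variable {p : ℕ} [hp : Fact p.Prime] {σ : Module.End ℤ A} (C : Submodule ℤ A)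
  [Module.Free ℤ C] [Module.Finite ℤ C]

omit [Module.Finite ℤ C] in
theorem eq_zero_of_mem_of_nsmul_eq_zero {x : A} (hx : x ∈ C) {n : ℕ} (hn : n ≠ 0)
    (h : n • x = 0) : x = 0 := by
  have h' : (n : ℤ) • (⟨x, hx⟩ : C) = 0 := Subtype.ext (by simpa using h)
  have hn' : (n : ℤ) ≠ 0 := by exact_mod_cast hn
  exact congrArg Subtype.val ((smul_eq_zero.mp h').resolve_left hn')

include hp in
theorem finrank_fixed_add_finrank_ker_normEnd (hC : ∀ x ∈ C, σ x ∈ C) (hσ : σ ^ p = 1) :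
    finrank ℤ (C ⊓ LinearMap.ker (σ - 1) : Submodule ℤ A) +
      finrank ℤ (C ⊓ LinearMap.ker (normEnd p σ) : Submodule ℤ A) = finrank ℤ C := by
  rw [← finrank_map_add_finrank_inf_ker C (normEnd p σ)]
  congr 1
  have hX : (C ⊓ LinearMap.ker (σ - 1) : Submodule ℤ A) ≤ C := inf_le_left
  have : Module.Finite ℤ (C ⊓ LinearMap.ker (σ - 1) : Submodule ℤ A) := finite_of_le hX
  have hle1 : C.map (normEnd p σ) ≤ C ⊓ LinearMap.ker (σ - 1) := by
    rintro _ ⟨x, hx, rfl⟩
    exact ⟨normEnd_apply_mem_of_stable C hC hx, LinearMap.mem_ker.mpr (sub_one_normEnd_apply hσ x)⟩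
  have : Module.Finite ℤ (C.map (normEnd p σ)) := finite_of_le (hle1.trans hX)
  have hle2 : (C ⊓ LinearMap.ker (σ - 1)).map ((p : ℤ) • (LinearMap.id : A →ₗ[ℤ] A)) ≤
      C.map (normEnd p σ) := by
    rintro _ ⟨x, hx, rfl⟩
    exact ⟨x, hx.1, by rw [normEnd_apply_of_mem_ker p hx.2]; simp⟩
  have h3 : finrank ℤ ((C ⊓ LinearMap.ker (σ - 1)).map ((p : ℤ) • (LinearMap.id : A →ₗ[ℤ] A))) =
      finrank ℤ (C ⊓ LinearMap.ker (σ - 1) : Submodule ℤ A) := by
    refine finrank_map_of_injOn _ _ ?_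
    intro x hx h
    refine eq_zero_of_mem_of_nsmul_eq_zero C hx.1 hp.out.ne_zero ?_
    simpa using h
  refine le_antisymm ?_ (Submodule.finrank_mono hle1)
  rw [← h3]
  exact Submodule.finrank_mono hle2

end Main

section Final

variable {p : ℕ} [hp : Fact p.Prime] {σ : Module.End ℤ A} (C : Submodule ℤ A)
  [Module.Free ℤ C] [Module.Finite ℤ C]

include hp in
/-- `hq` of `B = (C ∩ ker D) + (C ∩ ker N)` for `(D, N)`: it is `[X : pX] = p ^ rank X`. -/
theorem hqL_sub_one_normEnd_sup :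
    hqL (σ - 1) (normEnd p σ)
      ((C ⊓ LinearMap.ker (σ - 1)) ⊔ (C ⊓ LinearMap.ker (normEnd p σ))) =
      p ^ finrank ℤ (C ⊓ LinearMap.ker (σ - 1) : Submodule ℤ A) := by
  have hX : (C ⊓ LinearMap.ker (σ - 1) : Submodule ℤ A) ≤ C := inf_le_left
  have : Module.Finite ℤ (C ⊓ LinearMap.ker (σ - 1) : Submodule ℤ A) := finite_of_le hX
  have : Module.Free ℤ (C ⊓ LinearMap.ker (σ - 1) : Submodule ℤ A) := free_of_le hX
  rw [hqL, map_normEnd_sup, sup_inf_ker_sub_one]
  exact relIndex_smul_eq_pow _ p hp.out.ne_zero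

include hp in
/-- `hq` of `B = (C ∩ ker D) + (C ∩ ker N)` for `(N, D)`: it is `[M : D M] = p ^ b` with
`(p - 1) * b = rank M`, `M = C ∩ ker N`. -/
theorem exists_hqL_normEnd_sub_one_sup (hC : ∀ x ∈ C, σ x ∈ C) (hσ : σ ^ p = 1) :
    ∃ b : ℕ, (p - 1) * b = finrank ℤ (C ⊓ LinearMap.ker (normEnd p σ) : Submodule ℤ A) ∧
      hqL (normEnd p σ) (σ - 1)
        ((C ⊓ LinearMap.ker (σ - 1)) ⊔ (C ⊓ LinearMap.ker (normEnd p σ))) = p ^ b := by
  have hM : (C ⊓ LinearMap.ker (normEnd p σ) : Submodule ℤ A) ≤ C := inf_le_left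
  have : Module.Finite ℤ (C ⊓ LinearMap.ker (normEnd p σ) : Submodule ℤ A) := finite_of_le hM
  have : Module.Free ℤ (C ⊓ LinearMap.ker (normEnd p σ) : Submodule ℤ A) := free_of_le hM
  -- `σ` restricted to `M`
  have hσM : ∀ x ∈ (C ⊓ LinearMap.ker (normEnd p σ) : Submodule ℤ A),
      σ x ∈ (C ⊓ LinearMap.ker (normEnd p σ) : Submodule ℤ A) :=
    fun x hx => ⟨hC x hx.1, apply_mem_ker_normEnd hσ hx.2⟩
  have hDM : ∀ x ∈ (C ⊓ LinearMap.ker (normEnd p σ) : Submodule ℤ A),
      (σ - 1) x ∈ (C ⊓ LinearMap.ker (normEnd p σ) : Submodule ℤ A) := by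
    intro x hx
    rw [LinearMap.sub_apply, Module.End.one_apply]
    exact Submodule.sub_mem _ (hσM x hx) hx
  have hinj : ∀ x ∈ (C ⊓ LinearMap.ker (normEnd p σ) : Submodule ℤ A), (σ - 1) x = 0 → x = 0 := by
    intro x hx h
    have h1 : normEnd p σ x = p • x := normEnd_apply_of_mem_ker p (LinearMap.mem_ker.mpr h)
    have h2 : normEnd p σ x = 0 := LinearMap.mem_ker.mp hx.2
    exact eq_zero_of_mem_of_nsmul_eq_zero C hx.1 hp.out.ne_zero (h1 ▸ h2)
  have hsum : ∑ i ∈ range p, (σ.restrict hσM) ^ i = 0 := by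
    ext x
    rw [LinearMap.sum_apply]
    simp only [LinearMap.zero_apply, ZeroMemClass.coe_zero]
    rw [AddSubmonoidClass.coe_finsetSum]
    have : ∀ i ∈ range p, ((((σ.restrict hσM) ^ i) x : _) : A) = (σ ^ i) (x : A) := by
      intro i _
      rw [Module.End.pow_restrict]
      rfl
    rw [Finset.sum_congr rfl this, ← LinearMap.sum_apply]
    exact LinearMap.mem_ker.mp x.2.2
  obtain ⟨b, hb, hdet⟩ := exists_natAbs_det_sub_one_eq p (σ.restrict hσM) hsum
  refine ⟨b, hb, ?_⟩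
  rw [hqL, map_sub_one_sup, sup_inf_ker_normEnd, relIndex_map_eq_natAbs_det _ (σ - 1) hDM hinj,
    ← hdet]
  congr 2

include hp in
/-- **Herbrand quotient of a lattice with an automorphism of prime order `p`** (relative form):
for a `σ`-stable subgroup `C` which is free of finite rank,
`[C ∩ ker D : N C] * p ^ b = p ^ a * [C ∩ ker N : D C]` with `a = rank (C ∩ ker D)` and
`a + (p - 1) * b = rank C`; both indices are finite. -/
theorem herbrand_prime_lattice (hC : ∀ x ∈ C, σ x ∈ C) (hσ : σ ^ p = 1) :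
    ∃ b : ℕ, finrank ℤ (C ⊓ LinearMap.ker (σ - 1) : Submodule ℤ A) + (p - 1) * b = finrank ℤ C ∧
      hqL (σ - 1) (normEnd p σ) C * p ^ b =
        p ^ finrank ℤ (C ⊓ LinearMap.ker (σ - 1) : Submodule ℤ A) *
          hqL (normEnd p σ) (σ - 1) C ∧
      hqL (σ - 1) (normEnd p σ) C ≠ 0 ∧ hqL (normEnd p σ) (σ - 1) C ≠ 0 := by
  obtain ⟨b, hb, hB1⟩ := exists_hqL_normEnd_sub_one_sup C hC hσ
  have hB0 := hqL_sub_one_normEnd_sup (p := p) (σ := σ) C
  have hrank := finrank_fixed_add_finrank_ker_normEnd C hC hσ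
  have hfin := relIndex_sup_ne_zero C hσ hC
  have hBC := sup_le_self (p := p) (σ := σ) C
  have hDB : ∀ x ∈ ((C ⊓ LinearMap.ker (σ - 1)) ⊔ (C ⊓ LinearMap.ker (normEnd p σ))),
      (σ - 1) x ∈ ((C ⊓ LinearMap.ker (σ - 1)) ⊔ (C ⊓ LinearMap.ker (normEnd p σ))) := by
    intro x hx
    exact Submodule.mem_sup_right ⟨sub_one_apply_mem_of_stable C hC (hBC hx),
      LinearMap.mem_ker.mpr (normEnd_sub_one_apply hσ x)⟩
  have hNB : ∀ x ∈ ((C ⊓ LinearMap.ker (σ - 1)) ⊔ (C ⊓ LinearMap.ker (normEnd p σ))),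
      normEnd p σ x ∈ ((C ⊓ LinearMap.ker (σ - 1)) ⊔ (C ⊓ LinearMap.ker (normEnd p σ))) := by
    intro x hx
    exact Submodule.mem_sup_left ⟨normEnd_apply_mem_of_stable C hC (hBC hx),
      LinearMap.mem_ker.mpr (sub_one_normEnd_apply hσ x)⟩
  have hDC : ∀ x ∈ C, (σ - 1) x ∈ C := fun x hx => sub_one_apply_mem_of_stable C hC hx
  have hNC : ∀ x ∈ C, normEnd p σ x ∈ C := fun x hx => normEnd_apply_mem_of_stable C hC hx
  have key := hqL_mul_hqL_of_relIndex_ne_zero (σ - 1) (normEnd p σ) (sub_one_mul_normEnd hσ)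
    (normEnd_mul_sub_one hσ) hBC hDB hNB hDC hNC hfin
  rw [hB0, hB1] at key
  refine ⟨b, by rw [hb]; exact hrank, key, ?_, ?_⟩
  · rw [hqL_ne_zero_iff_of_relIndex_ne_zero (σ - 1) (normEnd p σ) (sub_one_mul_normEnd hσ)
      hBC hNB hNC hfin, hB0]
    exact pow_ne_zero _ hp.out.ne_zero
  · rw [hqL_ne_zero_iff_of_relIndex_ne_zero (normEnd p σ) (σ - 1) (normEnd_mul_sub_one hσ)
      hBC hDB hDC hfin, hB1]
    exact pow_ne_zero _ hp.out.ne_zero

end Final

end Fermat.Agent.Herbrand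
end MergeWrap_Lib_Herbrand_PrimeCyclicFree

section MergeWrap_Lib_Herbrand_PrimeCyclic -- from Lib/Herbrand/PrimeCyclic.lean

/-!
# Herbrand quotient of a finitely generated module over a cyclic group of prime order

`A` a finitely generated abelian group, `σ` an endomorphism with `σ ^ p = 1`, `p` prime,
`N = 1 + σ + ... + σ^(p-1)`, `D = σ - 1`.  Then

  `[ker D : im N] * p ^ b = p ^ a * [ker N : im D]`,

with `a = rank (ker D)` and `a + (p - 1) * b = rank A`, and both indices are finite.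
-/

set_option autoImplicit false

open Module Finset

namespace Fermat.Agent.Herbrand

variable {A : Type*} [AddCommGroup A]

/-- If `K ≤ L` and `m L ≤ K` for some `m ≠ 0`, then `K` and `L` have the same rank. -/
theorem finrank_eq_of_nsmul_mem {K L : Submodule ℤ A} [Module.Finite ℤ L] (hKL : K ≤ L)
    {m : ℕ} (hm : m ≠ 0) (h : ∀ x ∈ L, m • x ∈ K) : finrank ℤ K = finrank ℤ L := by
  refine le_antisymm (Submodule.finrank_mono hKL) ?_
  have h1 := finrank_map_add_finrank_inf_ker L ((m : ℤ) • (LinearMap.id : A →ₗ[ℤ] A))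
  have h2 : finrank ℤ (L ⊓ LinearMap.ker ((m : ℤ) • (LinearMap.id : A →ₗ[ℤ] A)) :
      Submodule ℤ A) = 0 := by
    refine Module.IsTorsion.finrank_eq_zero ?_
    rintro ⟨x, hx⟩
    refine ⟨⟨(m : ℤ), ?_⟩, ?_⟩
    · exact mem_nonZeroDivisors_of_ne_zero (by exact_mod_cast hm)
    · refine Subtype.ext ?_
      have := LinearMap.mem_ker.mp hx.2
      simpa using this
  have : Module.Finite ℤ K := finite_of_le hKL
  have h3 : L.map ((m : ℤ) • (LinearMap.id : A →ₗ[ℤ] A)) ≤ K := by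
    rintro _ ⟨x, hx, rfl⟩
    simpa using h x hx
  rw [h2, add_zero] at h1
  rw [← h1]
  exact Submodule.finrank_mono h3

variable [Module.Finite ℤ A]

/-- A positive integer killing the torsion of a finitely generated abelian group. -/
theorem exists_nsmul_torsion_eq_zero (A : Type*) [AddCommGroup A] [Module.Finite ℤ A] :
    ∃ m : ℕ, m ≠ 0 ∧ ∀ x : A, ∀ k : ℕ, k ≠ 0 → k • x = 0 → m • x = 0 := by
  have hT : Module.IsTorsion ℤ (Submodule.torsion ℤ A) := Submodule.torsion_isTorsion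
  have : Finite (Submodule.torsion ℤ A) := Module.finite_of_fg_torsion _ hT
  refine ⟨Nat.card (Submodule.torsion ℤ A), Nat.card_pos.ne', ?_⟩
  intro x k hk hx
  have hxT : x ∈ Submodule.torsion ℤ A := by
    rw [Submodule.mem_torsion_iff]
    exact ⟨⟨(k : ℤ), mem_nonZeroDivisors_of_ne_zero (by exact_mod_cast hk)⟩, by simpa using hx⟩
  have := card_nsmul_eq_zero' (G := Submodule.torsion ℤ A) (x := ⟨x, hxT⟩)
  exact congrArg Subtype.val this

/-- The subgroup `m A` has finite index if `m ≠ 0` and `A` is finitely generated. -/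
theorem relIndex_map_smul_top_ne_zero {m : ℕ} (hm : m ≠ 0) :
    ((⊤ : Submodule ℤ A).map ((m : ℤ) • (LinearMap.id : A →ₗ[ℤ] A))).toAddSubgroup.relIndex
      (⊤ : Submodule ℤ A).toAddSubgroup ≠ 0 := by
  rw [Submodule.top_toAddSubgroup, AddSubgroup.relIndex_top_right]
  set C := (⊤ : Submodule ℤ A).map ((m : ℤ) • (LinearMap.id : A →ₗ[ℤ] A)) with hCdef
  have hT : Module.IsTorsion ℤ (A ⧸ C) := by
    intro x
    obtain ⟨y, rfl⟩ := Submodule.Quotient.mk_surjective C x
    refine ⟨⟨(m : ℤ), mem_nonZeroDivisors_of_ne_zero (by exact_mod_cast hm)⟩, ?_⟩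
    show (m : ℤ) • (Submodule.Quotient.mk y : A ⧸ C) = 0
    rw [← Submodule.Quotient.mk_smul C (m : ℤ) y, Submodule.Quotient.mk_eq_zero]
    exact ⟨y, Submodule.mem_top, by simp⟩
  have : Finite (A ⧸ C) := Module.finite_of_fg_torsion _ hT
  have : Finite (A ⧸ C.toAddSubgroup) := this
  exact AddSubgroup.index_ne_zero_of_finite

variable {p : ℕ} [hp : Fact p.Prime] {σ : Module.End ℤ A}

include hp in
/-- **Herbrand quotient for a cyclic group of prime order `p`** acting on a finitely generated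
abelian group `A` (`σ` is the action of a generator, `N` the norm, `D = σ - 1`):
`[ker D : im N] * p ^ b = p ^ a * [ker N : im D]` with `a = rank (ker D)`,
`a + (p - 1) * b = rank A`; both indices are finite (nonzero). -/
theorem herbrand_prime_cyclic_hqL (hσ : σ ^ p = 1) :
    ∃ b : ℕ, finrank ℤ (LinearMap.ker (σ - 1)) + (p - 1) * b = finrank ℤ A ∧
      hqL (σ - 1) (normEnd p σ) ⊤ * p ^ b =
        p ^ finrank ℤ (LinearMap.ker (σ - 1)) * hqL (normEnd p σ) (σ - 1) ⊤ ∧
      hqL (σ - 1) (normEnd p σ) ⊤ ≠ 0 ∧ hqL (normEnd p σ) (σ - 1) ⊤ ≠ 0 := by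
  obtain ⟨m, hm, hmT⟩ := exists_nsmul_torsion_eq_zero A
  set C := (⊤ : Submodule ℤ A).map ((m : ℤ) • (LinearMap.id : A →ₗ[ℤ] A)) with hCdef
  have hmem : ∀ x : A, m • x ∈ C := fun x => ⟨x, Submodule.mem_top, by simp⟩
  have hCσ : ∀ x ∈ C, σ x ∈ C := by
    rintro _ ⟨x, -, rfl⟩
    refine ⟨σ x, Submodule.mem_top, ?_⟩
    simp
  have hCtf : Module.IsTorsionFree ℤ C := by
    refine Module.IsTorsionFree.of_smul_eq_zero ?_
    intro r y h
    obtain ⟨y, hy⟩ := y
    obtain ⟨x, hx, rfl⟩ := hy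
    by_cases hr : r = 0
    · exact Or.inl hr
    · right
      refine Subtype.ext ?_
      have h1 : r • ((m : ℤ) • x) = 0 := by
        have := congrArg Subtype.val h
        simpa using this
      have h2 : (r.natAbs * m) • x = 0 := by
        rcases Int.natAbs_eq r with h' | h'
        · rw [h'] at h1
          rw [mul_smul]
          simpa using h1
        · rw [h'] at h1
          rw [mul_smul]
          simpa using h1
      have h3 := hmT x (r.natAbs * m) (mul_ne_zero (Int.natAbs_ne_zero.mpr hr) hm) h2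
      simpa using h3
  have hCfree : Module.Free ℤ C := inferInstance
  obtain ⟨b, hb, hkey, hn0, hn1⟩ := herbrand_prime_lattice (p := p) C hCσ hσ
  have hfin := relIndex_map_smul_top_ne_zero (A := A) hm
  rw [← hCdef] at hfin
  have hCtop : C ≤ ⊤ := le_top
  have hDC : ∀ x ∈ C, (σ - 1) x ∈ C := fun x hx => sub_one_apply_mem_of_stable C hCσ hx
  have hNC : ∀ x ∈ C, normEnd p σ x ∈ C := fun x hx => normEnd_apply_mem_of_stable C hCσ hx
  have R2 := hqL_mul_hqL_of_relIndex_ne_zero (σ - 1) (normEnd p σ) (sub_one_mul_normEnd hσ)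
    (normEnd_mul_sub_one hσ) hCtop hDC hNC (fun _ _ => Submodule.mem_top)
    (fun _ _ => Submodule.mem_top) hfin
  have hr1 : finrank ℤ C = finrank ℤ A := by
    rw [← finrank_top ℤ A]
    exact finrank_eq_of_nsmul_mem hCtop hm (fun x _ => hmem x)
  have hr2 : finrank ℤ (C ⊓ LinearMap.ker (σ - 1) : Submodule ℤ A) =
      finrank ℤ (LinearMap.ker (σ - 1)) := by
    refine finrank_eq_of_nsmul_mem inf_le_right hm ?_
    intro x hx
    exact ⟨hmem x, Submodule.smul_of_tower_mem _ m hx⟩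
  rw [hr1, hr2] at hb
  rw [hr2] at hkey
  refine ⟨b, hb, ?_, ?_, ?_⟩
  · have e : (hqL (σ - 1) (normEnd p σ) ⊤ * p ^ b) * hqL (normEnd p σ) (σ - 1) C =
        (p ^ finrank ℤ (LinearMap.ker (σ - 1)) * hqL (normEnd p σ) (σ - 1) ⊤) *
          hqL (normEnd p σ) (σ - 1) C := by
      calc (hqL (σ - 1) (normEnd p σ) ⊤ * p ^ b) * hqL (normEnd p σ) (σ - 1) C
          = (hqL (σ - 1) (normEnd p σ) ⊤ * hqL (normEnd p σ) (σ - 1) C) * p ^ b := by ring
        _ = (hqL (σ - 1) (normEnd p σ) C * p ^ b) * hqL (normEnd p σ) (σ - 1) ⊤ := by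
            rw [R2]; ring
        _ = _ := by rw [hkey]; ring
    exact Nat.eq_of_mul_eq_mul_right (Nat.pos_of_ne_zero hn1) e
  · rw [hqL_ne_zero_iff_of_relIndex_ne_zero (σ - 1) (normEnd p σ) (sub_one_mul_normEnd hσ)
      hCtop hNC (fun _ _ => Submodule.mem_top) hfin]
    exact hn0
  · rw [hqL_ne_zero_iff_of_relIndex_ne_zero (normEnd p σ) (σ - 1) (normEnd_mul_sub_one hσ)
      hCtop hDC (fun _ _ => Submodule.mem_top) hfin]
    exact hn1

end Fermat.Agent.Herbrand
end MergeWrap_Lib_Herbrand_PrimeCyclic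

section MergeWrap_Lib_Herbrand_Mul -- from Lib/Herbrand/Mul.lean

/-!
# Herbrand quotient for a cyclic group of prime order: multiplicative form

`G` a commutative group which is finitely generated (`Module.Finite ℤ (Additive G)`),
`s : G →* G` with `s^[p] = id`, `p` prime.  With `twistHom s x = s x / x` and
`normHom p s x = ∏ i < p, s^[i] x`:

  `[ker twist : im norm] * p ^ b = p ^ a * [ker norm : im twist]`,

`a = rank (ker twist)`, `a + (p - 1) * b = rank G`, both indices finite.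
-/

set_option autoImplicit false

open Module Finset

namespace Fermat.Agent.Herbrand

variable {G : Type*} [CommGroup G]

/-- `x ↦ s x / x`. -/
def twistHom (s : G →* G) : G →* G where
  toFun x := s x / x
  map_one' := by simp
  map_mul' x y := by
    rw [map_mul]
    exact mul_div_mul_comm _ _ _ _

@[simp] theorem twistHom_apply (s : G →* G) (x : G) : twistHom s x = s x / x := rfl

/-- `x ↦ ∏ i < p, s^[i] x`. -/
def normHom (p : ℕ) (s : G →* G) : G →* G where
  toFun x := ∏ i ∈ range p, s^[i] x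
  map_one' := by simp [iterate_map_one]
  map_mul' x y := by
    simp only [iterate_map_mul]
    exact Finset.prod_mul_distrib

@[simp] theorem normHom_apply (p : ℕ) (s : G →* G) (x : G) :
    normHom p s x = ∏ i ∈ range p, s^[i] x := rfl

theorem mem_ker_twistHom {s : G →* G} {x : G} : x ∈ (twistHom s).ker ↔ s x = x := by
  rw [MonoidHom.mem_ker, twistHom_apply, div_eq_one]

/-- The additive endomorphism attached to `s`. -/
noncomputable def addEnd (s : G →* G) : Module.End ℤ (Additive G) :=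
  (MonoidHom.toAdditive s).toIntLinearMap

@[simp] theorem addEnd_apply (s : G →* G) (x : Additive G) :
    addEnd s x = Additive.ofMul (s x.toMul) := rfl

theorem addEnd_pow_apply (s : G →* G) (i : ℕ) (x : Additive G) :
    (addEnd s ^ i) x = Additive.ofMul (s^[i] x.toMul) := by
  induction i generalizing x with
  | zero => simp
  | succ n ih =>
    rw [pow_succ, Module.End.mul_apply, ih, Function.iterate_succ_apply]
    rfl

theorem addEnd_pow_eq_one {p : ℕ} {s : G →* G} (hs : ∀ x, s^[p] x = x) : addEnd s ^ p = 1 := by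
  ext x
  rw [addEnd_pow_apply, hs]
  rfl

theorem addEnd_sub_one_apply (s : G →* G) (x : Additive G) :
    (addEnd s - 1) x = Additive.ofMul (twistHom s x.toMul) := by
  rw [LinearMap.sub_apply, Module.End.one_apply, addEnd_apply, twistHom_apply, ofMul_div]
  rfl

theorem normEnd_addEnd_apply (p : ℕ) (s : G →* G) (x : Additive G) :
    normEnd p (addEnd s) x = Additive.ofMul (normHom p s x.toMul) := by
  rw [normEnd, LinearMap.sum_apply, normHom_apply, ofMul_prod]
  exact Finset.sum_congr rfl fun i _ => addEnd_pow_apply s i x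

theorem ker_addEnd_sub_one (s : G →* G) :
    (LinearMap.ker (addEnd s - 1)).toAddSubgroup = Subgroup.toAddSubgroup (twistHom s).ker := by
  ext x
  rw [Submodule.mem_toAddSubgroup, LinearMap.mem_ker, addEnd_sub_one_apply,
    Additive.mem_toAddSubgroup, MonoidHom.mem_ker]
  exact Iff.rfl

theorem ker_normEnd_addEnd (p : ℕ) (s : G →* G) :
    (LinearMap.ker (normEnd p (addEnd s))).toAddSubgroup =
      Subgroup.toAddSubgroup (normHom p s).ker := by
  ext x
  rw [Submodule.mem_toAddSubgroup, LinearMap.mem_ker, normEnd_addEnd_apply,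
    Additive.mem_toAddSubgroup, MonoidHom.mem_ker]
  exact Iff.rfl

theorem range_addEnd_sub_one (s : G →* G) :
    ((⊤ : Submodule ℤ (Additive G)).map (addEnd s - 1)).toAddSubgroup =
      Subgroup.toAddSubgroup (twistHom s).range := by
  ext x
  rw [Submodule.mem_toAddSubgroup, Additive.mem_toAddSubgroup, MonoidHom.mem_range]
  constructor
  · rintro ⟨y, -, rfl⟩
    exact ⟨y.toMul, by rw [addEnd_sub_one_apply]; rfl⟩
  · rintro ⟨y, hy⟩
    exact ⟨Additive.ofMul y, Submodule.mem_top, by rw [addEnd_sub_one_apply]; exact congrArg _ hy⟩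

theorem range_normEnd_addEnd (p : ℕ) (s : G →* G) :
    ((⊤ : Submodule ℤ (Additive G)).map (normEnd p (addEnd s))).toAddSubgroup =
      Subgroup.toAddSubgroup (normHom p s).range := by
  ext x
  rw [Submodule.mem_toAddSubgroup, Additive.mem_toAddSubgroup, MonoidHom.mem_range]
  constructor
  · rintro ⟨y, -, rfl⟩
    exact ⟨y.toMul, by rw [normEnd_addEnd_apply]; rfl⟩
  · rintro ⟨y, hy⟩
    exact ⟨Additive.ofMul y, Submodule.mem_top, by rw [normEnd_addEnd_apply]; exact congrArg _ hy⟩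

theorem hqL_addEnd_sub_one (p : ℕ) (s : G →* G) :
    hqL (addEnd s - 1) (normEnd p (addEnd s)) ⊤ =
      (normHom p s).range.relIndex (twistHom s).ker := by
  rw [hqL, top_inf_eq, range_normEnd_addEnd, ker_addEnd_sub_one, Subgroup.relIndex_toAddSubgroup]

theorem hqL_normEnd_addEnd (p : ℕ) (s : G →* G) :
    hqL (normEnd p (addEnd s)) (addEnd s - 1) ⊤ =
      (twistHom s).range.relIndex (normHom p s).ker := by
  rw [hqL, top_inf_eq, range_addEnd_sub_one, ker_normEnd_addEnd, Subgroup.relIndex_toAddSubgroup]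

/-- The kernel of `addEnd s - 1` is (linearly equivalent to) `Additive` of the subgroup of
fixed points. -/
noncomputable def kerEquiv (s : G →* G) :
    LinearMap.ker (addEnd s - 1) ≃ₗ[ℤ] Additive (twistHom s).ker :=
  AddEquiv.toIntLinearEquiv
    { toFun := fun x => Additive.ofMul ⟨(x : Additive G).toMul, by
        have := x.2
        rw [LinearMap.mem_ker, addEnd_sub_one_apply] at this
        exact this⟩
      invFun := fun y => ⟨Additive.ofMul (y.toMul : G), by
        rw [LinearMap.mem_ker, addEnd_sub_one_apply]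
        exact y.toMul.2⟩
      left_inv := fun x => rfl
      right_inv := fun y => rfl
      map_add' := fun x y => rfl }

theorem finrank_ker_addEnd_sub_one (s : G →* G) :
    finrank ℤ (LinearMap.ker (addEnd s - 1)) = finrank ℤ (Additive (twistHom s).ker) :=
  (kerEquiv s).finrank_eq

/-- **Herbrand quotient for a cyclic group of prime order**, multiplicative form. -/
theorem herbrand_prime_cyclic_mul [Module.Finite ℤ (Additive G)] {p : ℕ} [Fact p.Prime]
    (s : G →* G) (hs : ∀ x, s^[p] x = x) :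
    ∃ b : ℕ, finrank ℤ (Additive (twistHom s).ker) + (p - 1) * b = finrank ℤ (Additive G) ∧
      (normHom p s).range.relIndex (twistHom s).ker * p ^ b =
        p ^ finrank ℤ (Additive (twistHom s).ker) *
          (twistHom s).range.relIndex (normHom p s).ker ∧
      (normHom p s).range.relIndex (twistHom s).ker ≠ 0 ∧
      (twistHom s).range.relIndex (normHom p s).ker ≠ 0 := by
  obtain ⟨b, hb, hkey, h0, h1⟩ :=
    herbrand_prime_cyclic_hqL (p := p) (σ := addEnd s) (addEnd_pow_eq_one hs)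
  rw [hqL_addEnd_sub_one, hqL_normEnd_addEnd, finrank_ker_addEnd_sub_one] at hkey
  rw [hqL_addEnd_sub_one] at h0
  rw [hqL_normEnd_addEnd] at h1
  rw [finrank_ker_addEnd_sub_one] at hb
  exact ⟨b, hb, hkey, h0, h1⟩

end Fermat.Agent.Herbrand
end MergeWrap_Lib_Herbrand_Mul

section MergeWrap_S14_FirstIneq_UnitIndexCore -- from S14/FirstIneq/UnitIndexCore.lean

set_option autoImplicit false

open NumberField Module Finset

namespace Fermat.Agent.S14UI

open Fermat.Agent.Herbrand Fermat.Agent.S14FI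

variable {E M : Type} [Field E] [NumberField E] [Field M] [NumberField M] [Algebra E M]

/-- The inclusion of units `(𝓞 E)ˣ → (𝓞 M)ˣ`. -/
noncomputable def unitIncl (E M : Type) [Field E] [NumberField E] [Field M] [NumberField M]
    [Algebra E M] : (𝓞 E)ˣ →* (𝓞 M)ˣ :=
  Units.map (algebraMap (𝓞 E) (𝓞 M) : 𝓞 E →* 𝓞 M)

theorem unitIncl_injective : Function.Injective (unitIncl E M) := by
  refine Units.map_injective ?_
  exact FaithfulSMul.algebraMap_injective (𝓞 E) (𝓞 M)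

theorem twistHom_unitAct (τ : M ≃ₐ[E] M) : twistHom (unitAct τ) = unitTwist τ := rfl

/-- The unit index relation, from the bridge facts:
* `h0`: `τ` has order dividing `p` on units;
* `h1`: units fixed by `τ` come from `E`; `h1'`: units of `E` are fixed;
* `h2`: the norm is the product of the `τ^i`;
* `hrank`: `rank M + 1 = p * (rank E + 1)`. -/
theorem unitIndex_of_bridge (p : ℕ) (hp : p.Prime) (τ : M ≃ₐ[E] M)
    (h0 : ∀ u : (𝓞 M)ˣ, (unitAct τ)^[p] u = u)
    (h1 : ∀ u : (𝓞 M)ˣ, unitAct τ u = u → u ∈ (unitIncl E M).range)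
    (h1' : ∀ e : (𝓞 E)ˣ, unitAct τ (unitIncl E M e) = unitIncl E M e)
    (h2 : ∀ u : (𝓞 M)ˣ, unitIncl E M (unitNorm E M u) = ∏ i ∈ range p, (unitAct τ)^[i] u)
    (hrank : NumberField.Units.rank M + 1 = p * (NumberField.Units.rank E + 1)) :
    (unitNorm E M).range.index ≠ 0 ∧
      (unitTwist τ).range.relIndex (unitNorm E M).ker = p * (unitNorm E M).range.index := by
  have : Fact p.Prime := ⟨hp⟩
  obtain ⟨b, hb, hkey, hn0, hn1⟩ := herbrand_prime_cyclic_mul (p := p) (unitAct τ) h0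
  -- identify the four subgroups
  have hker : (twistHom (unitAct τ)).ker = (unitIncl E M).range := by
    ext u
    rw [mem_ker_twistHom]
    constructor
    · exact h1 u
    · rintro ⟨e, rfl⟩
      exact h1' e
  have hnorm : Fermat.Agent.Herbrand.normHom p (unitAct τ) = (unitIncl E M).comp (unitNorm E M) := by
    ext u
    rw [Fermat.Agent.Herbrand.normHom_apply, MonoidHom.comp_apply, h2]
  have hnker : (Fermat.Agent.Herbrand.normHom p (unitAct τ)).ker = (unitNorm E M).ker := by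
    rw [hnorm]
    ext u
    simp only [MonoidHom.mem_ker, MonoidHom.comp_apply]
    constructor
    · intro h
      exact unitIncl_injective (by rw [h, map_one])
    · intro h
      rw [h, map_one]
  have hnrange : (Fermat.Agent.Herbrand.normHom p (unitAct τ)).range = (unitNorm E M).range.map (unitIncl E M) := by
    rw [hnorm, MonoidHom.range_eq_map, MonoidHom.range_eq_map, ← Subgroup.map_map]
  have hh0 : (Fermat.Agent.Herbrand.normHom p (unitAct τ)).range.relIndex (twistHom (unitAct τ)).ker =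
      (unitNorm E M).range.index := by
    rw [hker, hnrange, MonoidHom.range_eq_map (unitIncl E M),
      Subgroup.relIndex_map_map_of_injective _ _ unitIncl_injective, Subgroup.relIndex_top_right]
  -- ranks
  have hrM : finrank ℤ (Additive (𝓞 M)ˣ) = NumberField.Units.rank M := NumberField.Units.finrank_eq M
  have hrE : finrank ℤ (Additive (twistHom (unitAct τ)).ker) = NumberField.Units.rank E := by
    rw [← NumberField.Units.finrank_eq E]
    have e1 : (𝓞 E)ˣ ≃* (unitIncl E M).range := MonoidHom.ofInjective unitIncl_injective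
    have e2 : (twistHom (unitAct τ)).ker ≃* (unitIncl E M).range := MulEquiv.subgroupCongr hker
    exact (MulEquiv.toAdditive (e2.trans e1.symm)).toIntLinearEquiv.finrank_eq
  rw [hrM, hrE] at hb
  rw [hh0, hrE, hnker, twistHom_unitAct] at hkey
  rw [hh0] at hn0
  have hp1 : 0 < p - 1 := Nat.sub_pos_of_lt hp.one_lt
  have hbval : b = NumberField.Units.rank E + 1 := by
    have h3 : (p - 1) * b = (p - 1) * (NumberField.Units.rank E + 1) := by
      have hpp : p = (p - 1) + 1 := (Nat.sub_add_cancel hp.one_lt.le).symm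
      have : p * (NumberField.Units.rank E + 1) =
          (p - 1) * (NumberField.Units.rank E + 1) + (NumberField.Units.rank E + 1) := by
        conv_lhs => rw [hpp]
        ring
      omega
    exact Nat.eq_of_mul_eq_mul_left hp1 h3
  refine ⟨hn0, ?_⟩
  rw [hbval, pow_succ] at hkey
  have hpa : 0 < p ^ NumberField.Units.rank E := pow_pos hp.pos _
  have : p ^ NumberField.Units.rank E * ((unitTwist τ).range.relIndex (unitNorm E M).ker) =
      p ^ NumberField.Units.rank E * (p * (unitNorm E M).range.index) := by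
    rw [← hkey]; ring
  exact Nat.eq_of_mul_eq_mul_left hpa this

end Fermat.Agent.S14UI
end MergeWrap_S14_FirstIneq_UnitIndexCore

section MergeWrap_S14_FirstIneq_UnitIndexProof -- from S14/FirstIneq/UnitIndexProof.lean

set_option autoImplicit false

open NumberField

namespace Fermat.Agent.S14FI

/-- **(B)** The unit index relation: `[ker N : (τ - 1) E_M] = p * [E_E : N E_M]`. -/
theorem unitIndex : UnitIndex := by
  intro p E M _ _ _ _ _ _ τ hp hp2 hfin hτ
  have hodd : Odd (Module.finrank E M) := by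
    rw [hfin]; exact hp.odd_of_ne_two hp2
  have hrank := units_rank_add_one E M hodd
  rw [hfin] at hrank
  exact Fermat.Agent.S14UI.unitIndex_of_bridge p hp τ
    (unitBridge_u0 hp hfin τ)
    (unitBridge_u1 hp hfin τ hτ)
    (fun e => unitBridge_u1_fixed τ e)
    (unitBridge_u2 hp hfin τ hτ)
    hrank

end Fermat.Agent.S14FI
end MergeWrap_S14_FirstIneq_UnitIndexProof

section MergeWrap_S14_FirstIneq_FirstIneqProof -- from S14/FirstIneq/FirstIneqProof.lean

set_option autoImplicit false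

namespace Fermat.Agent.S14FI

/-- **(H1) First inequality**: for an everywhere unramified Galois extension `M/E` of number
fields of odd prime degree, the norm map on ideal classes is not surjective. -/
theorem firstIneq : Fermat.Agent.S14.FirstIneq :=
  firstIneq_of_inputs invClass capKer unitIndex

theorem firstIneqOfUnitIndex : FirstIneqOfUnitIndex :=
  fun h => firstIneq_of_inputs invClass capKer h

end Fermat.Agent.S14FI
end MergeWrap_S14_FirstIneq_FirstIneqProof
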